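/-
Programme Q (S58), EC-side Eichler–Shimura relation in characteristic `ℓ`, part A (helper8):
**the degree function on the odd points of `E(K)`, `K = k(E)`, and its exact parallelogram law.**

`k` a field, `W` a Weierstrass curve over `k` with `Δ ≠ 0`, `K = W.FunctionField`.
* `XRep W R U V` : `(U : V)` with `U V : k[X]` coprime represents the `x`-coordinate of
  `R ∈ E(K)` (`(1 : 0)` for `R = 0`);
* `ht_eq_of_xRep` : the height `max (deg U) (deg V)` only depends on `R`;
* `xRep_parallelogram` : the exact parallelogram law for the heights of `R₁ ± R₂`;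
* `deg W hΔ : oddPoints W → ℤ` : the degree function; `deg_eq_of_xRep`, `deg_parallelogram`,
  `deg_nonneg`, `deg_genericPoint`.
-/
import Fermat.Agent.ES.Q58.IotaDescent23
import Fermat.Agent.ES.Q58.SubstEmb17
import Fermat.Agent.ES.Q58.PLCurve2
import Fermat.Agent.ES.Q58.PLPoly2

set_option autoImplicit false
set_option linter.unusedSectionVars false

namespace Fermat.Agent.ES.Q58.FrobRel8A

open WeierstrassCurve WeierstrassCurve.Affine Polynomial
open Fermat.Agent.ES.Q58.IotaDescent23 Fermat.Agent.ES.Q58.SubstEmb17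
  Fermat.Agent.ES.Q58.PLForms2 Fermat.Agent.ES.Q58.PLPoly2 Fermat.Agent.ES.Q58.PLCurve2

variable {k : Type*} [Field k]

/-! ### coprime pairs of polynomials up to units -/

/-- two coprime pairs with vanishing cross product have the same height. -/
theorem ht_eq_of_cross {U V U' V' : k[X]} (h : IsCoprime U V) (h' : IsCoprime U' V')
    (hc : U * V' = U' * V) : ht U V = ht U' V' := by
  obtain ⟨a, b, hab⟩ := h
  obtain ⟨a', b', hab'⟩ := h'
  set e := a * U' + b * V' with he
  set e' := a' * U + b' * V with he'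
  have hU' : U' = e * U := by
    calc U' = U' * (a * U + b * V) := by rw [hab, mul_one]
      _ = a * U' * U + b * (U' * V) := by ring
      _ = a * U' * U + b * (U * V') := by rw [hc]
      _ = e * U := by rw [he]; ring
  have hV' : V' = e * V := by
    calc V' = V' * (a * U + b * V) := by rw [hab, mul_one]
      _ = a * (U * V') + b * V' * V := by ring
      _ = a * (U' * V) + b * V' * V := by rw [hc]
      _ = e * V := by rw [he]; ring
  have hU : U = e' * U' := by
    calc U = U * (a' * U' + b' * V') := by rw [hab', mul_one]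
      _ = a' * U * U' + b' * (U * V') := by ring
      _ = a' * U * U' + b' * (U' * V) := by rw [hc]
      _ = e' * U' := by rw [he']; ring
  have hV : V = e' * V' := by
    calc V = V * (a' * U' + b' * V') := by rw [hab', mul_one]
      _ = a' * (U' * V) + b' * V * V' := by ring
      _ = a' * (U * V') + b' * V * V' := by rw [hc]
      _ = e' * V' := by rw [he']; ring
  have hee : e * e' = 1 := by
    have h1 : (e * e' - 1) * U' = 0 := by
      have : e * e' * U' = U' := by rw [mul_assoc, ← hU, ← hU']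
      rw [sub_mul, this, one_mul, sub_self]
    have h2 : (e * e' - 1) * V' = 0 := by
      have : e * e' * V' = V' := by rw [mul_assoc, ← hV, ← hV']
      rw [sub_mul, this, one_mul, sub_self]
    have hne : U' ≠ 0 ∨ V' ≠ 0 := ne_zero_of_isCoprime ⟨a', b', hab'⟩
    rcases hne with hne | hne
    · exact sub_eq_zero.mp ((mul_eq_zero.mp h1).resolve_right hne)
    · exact sub_eq_zero.mp ((mul_eq_zero.mp h2).resolve_right hne)
  have hunit : IsUnit e := IsUnit.of_mul_eq_one _ hee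
  obtain ⟨c, hc0, hce⟩ := Polynomial.isUnit_iff.mp hunit
  have hc0' : c ≠ 0 := hc0.ne_zero
  unfold ht
  rw [hU', hV', ← hce, natDegree_C_mul hc0', natDegree_C_mul hc0']

/-- proportional triples over a bigger domain are proportional over the smaller one. -/
theorem exists_proportional {A : Type*} [CommRing A] [IsDomain A] (c : k[X] →+* A)
    (hc : Function.Injective c) {P Q D P' Q' D' : k[X]} {μ : A} (hμ : μ ≠ 0)
    (hP : c P' = μ * c P) (hQ : c Q' = μ * c Q) (hD : c D' = μ * c D)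
    (hne : P ≠ 0 ∨ Q ≠ 0 ∨ D ≠ 0) :
    ∃ e e' : k[X], e ≠ 0 ∧ e * P = e' * P' ∧ e * Q = e' * Q' ∧ e * D = e' * D' := by
  have key : ∀ {S S' T T' : k[X]}, c S' = μ * c S → c T' = μ * c T → S' * T = S * T' := by
    intro S S' T T' hS hT
    apply hc
    rw [map_mul, map_mul, hS, hT]
    ring
  have hne0 : ∀ {S S' : k[X]}, c S' = μ * c S → S ≠ 0 → S' ≠ 0 := by
    intro S S' hS hS0 h0
    rw [h0, map_zero] at hS
    rcases mul_eq_zero.mp hS.symm with h | h
    · exact hμ h
    · exact hS0 (hc (by rw [h, map_zero]))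
  rcases hne with h | h | h
  · exact ⟨P', P, hne0 hP h, mul_comm _ _, key hP hQ, key hP hD⟩
  · exact ⟨Q', Q, hne0 hQ h, key hQ hP, mul_comm _ _, key hQ hD⟩
  · exact ⟨D', D, hne0 hD h, key hD hP, key hD hQ, mul_comm _ _⟩

/-! ### representatives of the `x`-coordinate -/

variable (W : Affine k)

/-- `(U : V)`, with `U V : k[X]` coprime, is the `x`-coordinate of the point `R` of `E(K)`. -/
def XRep (R : (W⁄W.FunctionField).Point) (U V : k[X]) : Prop :=
  IsCoprime U V ∧
    R.xRep 0 * algebraMap k[X] W.FunctionField V = R.xRep 1 * algebraMap k[X] W.FunctionField U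

variable {W}

theorem xRep_zero_iff {U V : k[X]} :
    XRep W (0 : (W⁄W.FunctionField).Point) U V ↔ IsUnit U ∧ V = 0 := by
  unfold XRep
  rw [Point.xRep_zero]
  simp only [Matrix.cons_val_zero, Matrix.cons_val_one, one_mul, zero_mul]
  constructor
  · rintro ⟨hcop, hV⟩
    have hV0 : V = 0 := algebraMap_functionField_injective W (by rw [hV, map_zero])
    subst hV0
    exact ⟨isCoprime_zero_right.mp hcop, rfl⟩
  · rintro ⟨hU, rfl⟩
    exact ⟨isCoprime_zero_right.mpr hU, map_zero _⟩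

theorem xRep_some_iff {x y : W.FunctionField} (h : (W⁄W.FunctionField).Nonsingular x y)
    {U V : k[X]} :
    XRep W (Point.some x y h) U V ↔ IsCoprime U V ∧
      x * algebraMap k[X] W.FunctionField V = algebraMap k[X] W.FunctionField U := by
  unfold XRep
  rw [Point.xRep_some]
  simp only [Matrix.cons_val_zero, Matrix.cons_val_one, one_mul]

theorem XRep.isCoprime {R : (W⁄W.FunctionField).Point} {U V : k[X]} (h : XRep W R U V) :
    IsCoprime U V := h.1

/-- the denominator of the `x`-coordinate of an affine point is nonzero. -/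
theorem XRep.denom_ne_zero {x y : W.FunctionField} {h : (W⁄W.FunctionField).Nonsingular x y}
    {U V : k[X]} (hR : XRep W (Point.some x y h) U V) : V ≠ 0 := by
  rw [xRep_some_iff] at hR
  rintro rfl
  rw [map_zero, mul_zero] at hR
  have hU : U = 0 := algebraMap_functionField_injective W (by rw [← hR.2, map_zero])
  rw [hU] at hR
  exact not_isCoprime_zero_zero hR.1

/-- the coordinate vector `(c U, c V)` is a nonzero multiple of `R.xRep`. -/
theorem XRep.exists_scale {R : (W⁄W.FunctionField).Point} {U V : k[X]} (h : XRep W R U V) :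
    ∃ lam : W.FunctionField, lam ≠ 0 ∧
      algebraMap k[X] W.FunctionField U = lam * R.xRep 0 ∧
      algebraMap k[X] W.FunctionField V = lam * R.xRep 1 := by
  rcases R with _ | ⟨x, y, hxy⟩
  · obtain ⟨hU, hV⟩ := xRep_zero_iff.mp h
    refine ⟨algebraMap k[X] W.FunctionField U, ?_, ?_, ?_⟩
    · intro h0
      have : U = 0 := algebraMap_functionField_injective W (by rw [h0, map_zero])
      rw [this] at hU
      exact not_isUnit_zero hU
    · show _ = _ * (0 : (W⁄W.FunctionField).Point).xRep 0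
      rw [Point.xRep_zero]; simp
    · show _ = _ * (0 : (W⁄W.FunctionField).Point).xRep 1
      rw [Point.xRep_zero, hV]; simp
  · have hV := h.denom_ne_zero
    rw [xRep_some_iff] at h
    refine ⟨algebraMap k[X] W.FunctionField V, ?_, ?_, ?_⟩
    · intro h0
      exact hV (algebraMap_functionField_injective W (by rw [h0, map_zero]))
    · rw [Point.xRep_some]; simp only [Matrix.cons_val_zero]; rw [← h.2, mul_comm]
    · rw [Point.xRep_some]; simp

/-- **the height of a representative only depends on the point.** -/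
theorem ht_eq_of_xRep {R : (W⁄W.FunctionField).Point} {U V U' V' : k[X]} (h : XRep W R U V)
    (h' : XRep W R U' V') : ht U V = ht U' V' := by
  obtain ⟨lam, -, hU, hV⟩ := h.exists_scale
  obtain ⟨lam', -, hU', hV'⟩ := h'.exists_scale
  refine ht_eq_of_cross h.1 h'.1 (algebraMap_functionField_injective W ?_)
  rw [map_mul, map_mul, hU, hV, hU', hV']
  ring

/-! ### the parallelogram law -/

theorem map_Wt_eq : (Wt W).map (algebraMap k[X] W.FunctionField) = W⁄W.FunctionField := by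
  unfold Wt
  rw [WeierstrassCurve.map_map]
  congr 1

/-- **the exact parallelogram law** for the heights of the `x`-coordinates of `R₁ ± R₂`. -/
theorem xRep_parallelogram [DecidableEq W.FunctionField] (hΔ : W.Δ ≠ 0)
    {R₁ R₂ : (W⁄W.FunctionField).Point} {U₁ V₁ U₂ V₂ U₃ V₃ U₄ V₄ : k[X]}
    (h₁ : XRep W R₁ U₁ V₁) (h₂ : XRep W R₂ U₂ V₂) (h₃ : XRep W (R₁ + R₂) U₃ V₃)
    (h₄ : XRep W (R₁ - R₂) U₄ V₄) :
    ht U₃ V₃ + ht U₄ V₄ = 2 * ht U₁ V₁ + 2 * ht U₂ V₂ := by
  obtain ⟨l₁, hl₁, hU₁, hV₁⟩ := h₁.exists_scale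
  obtain ⟨l₂, hl₂, hU₂, hV₂⟩ := h₂.exists_scale
  obtain ⟨l₃, hl₃, hU₃, hV₃⟩ := h₃.exists_scale
  obtain ⟨l₄, hl₄, hU₄, hV₄⟩ := h₄.exists_scale
  obtain ⟨c₀, hc₀, e0, e1, e2⟩ := addsub_rel R₁ R₂
  set c := algebraMap k[X] W.FunctionField with hc
  have hcinj : Function.Injective c := algebraMap_functionField_injective W
  set μ : W.FunctionField := l₁ ^ 2 * l₂ ^ 2 * c₀ / (l₃ * l₄) with hμ
  have hμ0 : μ ≠ 0 := by
    rw [hμ]
    exact div_ne_zero (mul_ne_zero (mul_ne_zero (pow_ne_zero _ hl₁) (pow_ne_zero _ hl₂)) hc₀)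
      (mul_ne_zero hl₃ hl₄)
  have hl34 : l₃ * l₄ ≠ 0 := mul_ne_zero hl₃ hl₄
  have E0 : c (G0 U₁ V₁ U₂ V₂) = μ * c (V₃ * V₄) := by
    rw [map_G0, map_mul, hU₁, hV₁, hU₂, hV₂, hV₃, hV₄, hμ]
    have : G0 (l₁ * R₁.xRep 0) (l₁ * R₁.xRep 1) (l₂ * R₂.xRep 0) (l₂ * R₂.xRep 1) =
        l₁ ^ 2 * l₂ ^ 2 * G0 (R₁.xRep 0) (R₁.xRep 1) (R₂.xRep 0) (R₂.xRep 1) := by
      simp only [G0]; ring
    rw [this, e0]
    field_simp
  have E1 : c (G1 (Wt W) U₁ V₁ U₂ V₂) = μ * c (U₃ * V₄ + U₄ * V₃) := by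
    rw [map_G1, map_Wt_eq, map_add, map_mul, map_mul, hU₁, hV₁, hU₂, hV₂, hU₃, hV₃, hU₄, hV₄, hμ]
    have : G1 (W⁄W.FunctionField) (l₁ * R₁.xRep 0) (l₁ * R₁.xRep 1) (l₂ * R₂.xRep 0)
        (l₂ * R₂.xRep 1) =
        l₁ ^ 2 * l₂ ^ 2 * G1 (W⁄W.FunctionField) (R₁.xRep 0) (R₁.xRep 1) (R₂.xRep 0)
          (R₂.xRep 1) := by
      simp only [G1]; ring
    rw [this, e1]
    field_simp
  have E2 : c (G2 (Wt W) U₁ V₁ U₂ V₂) = μ * c (U₃ * U₄) := by
    rw [map_G2, map_Wt_eq, map_mul, hU₁, hV₁, hU₂, hV₂, hU₃, hU₄, hμ]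
    have : G2 (W⁄W.FunctionField) (l₁ * R₁.xRep 0) (l₁ * R₁.xRep 1) (l₂ * R₂.xRep 0)
        (l₂ * R₂.xRep 1) =
        l₁ ^ 2 * l₂ ^ 2 * G2 (W⁄W.FunctionField) (R₁.xRep 0) (R₁.xRep 1) (R₂.xRep 0)
          (R₂.xRep 1) := by
      simp only [G2]; ring
    rw [this, e2]
    field_simp
  have hne : V₃ * V₄ ≠ 0 ∨ U₃ * V₄ + U₄ * V₃ ≠ 0 ∨ U₃ * U₄ ≠ 0 := by
    by_contra hcon
    push Not at hcon
    obtain ⟨hA, hB, hD⟩ := hcon
    exact prim3_sym h₃.1 h₄.1 X prime_X (hA ▸ dvd_zero _) (hB ▸ dvd_zero _) (hD ▸ dvd_zero _)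
  obtain ⟨e, e', he, hA, hB, hD⟩ := exists_proportional c hcinj hμ0 E0 E1 E2 hne
  exact parallelogram W hΔ h₁.1 h₂.1 h₃.1 h₄.1 he hA hB hD

/-! ### the degree function on the odd points -/

section Deg

variable [DecidableEq W.FunctionField]

/-- every odd point has a representative of its `x`-coordinate. -/
theorem exists_xRep (hΔ : W.Δ ≠ 0) {R : (W⁄W.FunctionField).Point} (hR : R ∈ oddPoints W) :
    ∃ U V : k[X], XRep W R U V := by
  rcases R with _ | ⟨x, y, h⟩
  · exact ⟨1, 0, xRep_zero_iff.mpr ⟨isUnit_one, rfl⟩⟩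
  · obtain ⟨U, V, hUV, -, hx⟩ := exists_coprime_x_of_mem_oddPoints W hΔ h hR
    exact ⟨U, V, (xRep_some_iff h).mpr ⟨hUV, hx⟩⟩

variable (W) in
/-- **the degree function** on the odd points: the height of the `x`-coordinate. -/
noncomputable def deg (hΔ : W.Δ ≠ 0) (R : oddPoints W) : ℤ :=
  (ht (exists_xRep hΔ R.2).choose (exists_xRep hΔ R.2).choose_spec.choose : ℕ)

theorem deg_eq_of_xRep (hΔ : W.Δ ≠ 0) {R : oddPoints W} {U V : k[X]}
    (h : XRep W (R : (W⁄W.FunctionField).Point) U V) : deg W hΔ R = (ht U V : ℕ) := by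
  unfold deg
  rw [ht_eq_of_xRep (exists_xRep hΔ R.2).choose_spec.choose_spec h]

theorem deg_nonneg (hΔ : W.Δ ≠ 0) (R : oddPoints W) : 0 ≤ deg W hΔ R := by
  unfold deg
  exact Int.natCast_nonneg _

/-- **the exact parallelogram law for the degree function.** -/
theorem deg_parallelogram (hΔ : W.Δ ≠ 0) (R S : oddPoints W) :
    deg W hΔ (R + S) + deg W hΔ (R - S) = 2 * deg W hΔ R + 2 * deg W hΔ S := by
  obtain ⟨U₁, V₁, h₁⟩ := exists_xRep hΔ R.2
  obtain ⟨U₂, V₂, h₂⟩ := exists_xRep hΔ S.2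
  obtain ⟨U₃, V₃, h₃⟩ := exists_xRep hΔ (R + S).2
  obtain ⟨U₄, V₄, h₄⟩ := exists_xRep hΔ (R - S).2
  rw [deg_eq_of_xRep hΔ h₁, deg_eq_of_xRep hΔ h₂, deg_eq_of_xRep hΔ h₃, deg_eq_of_xRep hΔ h₄]
  have h₃' : XRep W ((R : (W⁄W.FunctionField).Point) + S) U₃ V₃ := h₃
  have h₄' : XRep W ((R : (W⁄W.FunctionField).Point) - S) U₄ V₄ := h₄
  have := xRep_parallelogram hΔ h₁ h₂ h₃' h₄'
  exact_mod_cast this

/-- the generic point, as an odd point. -/
noncomputable def genericOdd (hΔ : W.Δ ≠ 0) : oddPoints W :=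
  ⟨genericPoint W hΔ, genericPoint_mem_oddPoints W hΔ⟩

theorem xRep_genericPoint (hΔ : W.Δ ≠ 0) : XRep W (genericPoint W hΔ) X 1 := by
  unfold IotaDescent23.genericPoint
  rw [xRep_some_iff]
  refine ⟨isCoprime_one_right, ?_⟩
  rw [map_one, mul_one]
  rfl

theorem deg_genericOdd (hΔ : W.Δ ≠ 0) : deg W hΔ (genericOdd hΔ) = 1 := by
  rw [deg_eq_of_xRep hΔ (xRep_genericPoint hΔ)]
  simp [ht]

/-- a point of degree `0` is `0` or has a constant `x`-coordinate. -/
theorem exists_const_of_deg_eq_zero (hΔ : W.Δ ≠ 0) {x y : W.FunctionField}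
    {h : (W⁄W.FunctionField).Nonsingular x y} (hR : Point.some x y h ∈ oddPoints W)
    (hd : deg W hΔ ⟨Point.some x y h, hR⟩ = 0) : ∃ a : k, x = algebraMap k W.FunctionField a := by
  obtain ⟨U, V, hUV⟩ := exists_xRep hΔ hR
  have hV := hUV.denom_ne_zero
  rw [deg_eq_of_xRep hΔ (R := ⟨Point.some x y h, hR⟩) hUV] at hd
  have hd' : ht U V = 0 := by exact_mod_cast hd
  have hU0 : U.natDegree = 0 := Nat.le_zero.mp (hd' ▸ natDegree_le_ht_left U V)
  have hV0 : V.natDegree = 0 := Nat.le_zero.mp (hd' ▸ natDegree_le_ht_right U V)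
  obtain ⟨u, rfl⟩ := natDegree_eq_zero.mp hU0
  obtain ⟨v, rfl⟩ := natDegree_eq_zero.mp hV0
  have hv : v ≠ 0 := by
    rintro rfl
    exact hV (map_zero _)
  rw [xRep_some_iff] at hUV
  refine ⟨u / v, ?_⟩
  have hx := hUV.2
  rw [← algebraMap_eq_coordinateRing, ← algebraMap_eq_coordinateRing] at hx
  have hv' : algebraMap k W.FunctionField v ≠ 0 := by
    rw [Ne, map_eq_zero]; exact hv
  rw [map_div₀, eq_div_iff hv', hx]

/-- a point of positive degree has a transcendental `x`-coordinate. -/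
theorem transcendental_of_deg_pos (hΔ : W.Δ ≠ 0) {x y : W.FunctionField}
    {h : (W⁄W.FunctionField).Nonsingular x y} (hR : Point.some x y h ∈ oddPoints W)
    (hd : 0 < deg W hΔ ⟨Point.some x y h, hR⟩) : Transcendental k x := by
  obtain ⟨U, V, hUV⟩ := exists_xRep hΔ hR
  rw [deg_eq_of_xRep hΔ (R := ⟨Point.some x y h, hR⟩) hUV] at hd
  have hd' : 0 < ht U V := by exact_mod_cast hd
  rw [xRep_some_iff] at hUV
  exact transcendental_of_isCoprime W hUV.1 hd' hUV.2

/-- the zero point has degree `0`. -/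
theorem deg_zero (hΔ : W.Δ ≠ 0) : deg W hΔ 0 = 0 := by
  have h : XRep W ((0 : oddPoints W) : (W⁄W.FunctionField).Point) 1 0 :=
    xRep_zero_iff.mpr ⟨isUnit_one, rfl⟩
  rw [deg_eq_of_xRep hΔ h]
  simp [ht]

end Deg

end Fermat.Agent.ES.Q58.FrobRel8A
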