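/-
Programme Q (S58), EC-side Eichler–Shimura relation in characteristic `ℓ`, part B (helper8):
**the Frobenius endomorphism of `E(K)`, `K = 𝔽_ℓ(E)`, and multiplicativity of the degree along it.**

`W` a Weierstrass curve over `ZMod ℓ`, `K = W.FunctionField`.
* `frobAlg ℓ L : L →ₐ[ZMod ℓ] L` : the `ℓ`-power map of a field `L ⊇ 𝔽_ℓ`;
* `map_frobAlg_comm` : `Point.map` of a `ZMod ℓ`-embedding commutes with Frobenius;
* `phi W : oddPoints W →+ oddPoints W` : Frobenius on the odd points;
* `deg_phi` : `deg (φ R) = ℓ * deg R`.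
-/
import Fermat.Agent.ES.Q58.FrobRel8A

set_option autoImplicit false
set_option linter.unusedSectionVars false

namespace Fermat.Agent.ES.Q58.FrobRel8B

open WeierstrassCurve WeierstrassCurve.Affine Polynomial
open Fermat.Agent.ES.Q58.IotaDescent23 Fermat.Agent.ES.Q58.SubstEmb17
  Fermat.Agent.ES.Q58.PLPoly2 Fermat.Agent.ES.Q58.FrobRel8A

variable (ℓ : ℕ) [Fact ℓ.Prime]

/-! ### the Frobenius of a field over `𝔽_ℓ` -/

theorem charP_of_algebra (L : Type*) [Field L] [Algebra (ZMod ℓ) L] : CharP L ℓ :=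
  charP_of_injective_algebraMap (algebraMap (ZMod ℓ) L).injective ℓ

/-- the `ℓ`-power Frobenius of a field `L ⊇ 𝔽_ℓ`, as a `ZMod ℓ`-algebra endomorphism. -/
noncomputable def frobAlg (L : Type*) [Field L] [Algebra (ZMod ℓ) L] : L →ₐ[ZMod ℓ] L :=
  letI : CharP L ℓ := charP_of_algebra ℓ L
  { frobenius L ℓ with
    commutes' := fun a => by
      show (algebraMap (ZMod ℓ) L a) ^ ℓ = algebraMap (ZMod ℓ) L a
      rw [← map_pow, ZMod.pow_card] }

@[simp]
theorem frobAlg_apply (L : Type*) [Field L] [Algebra (ZMod ℓ) L] (z : L) :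
    frobAlg ℓ L z = z ^ ℓ := rfl

/-- every `ZMod ℓ`-embedding commutes with Frobenius. -/
theorem comp_frobAlg {L L' : Type*} [Field L] [Algebra (ZMod ℓ) L] [Field L']
    [Algebra (ZMod ℓ) L'] (σ : L →ₐ[ZMod ℓ] L') :
    σ.comp (frobAlg ℓ L) = (frobAlg ℓ L').comp σ := by
  refine AlgHom.ext fun z => ?_
  simp only [AlgHom.comp_apply, frobAlg_apply, map_pow]

variable {ℓ}
variable (W : Affine (ZMod ℓ))

/-- `Point.map` of a `ZMod ℓ`-embedding commutes with Frobenius. -/
theorem map_frobAlg_comm {L L' : Type*} [Field L] [Algebra (ZMod ℓ) L] [Field L']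
    [Algebra (ZMod ℓ) L'] [DecidableEq L] [DecidableEq L'] (σ : L →ₐ[ZMod ℓ] L')
    (P : (W⁄L).Point) :
    Point.map (W' := W) σ (Point.map (W' := W) (frobAlg ℓ L) P) =
      Point.map (W' := W) (frobAlg ℓ L') (Point.map (W' := W) σ P) := by
  rw [Point.map_map, Point.map_map, comp_frobAlg]

/-- the coordinate vector of the image of a point. -/
theorem xRep_map {L L' : Type*} [Field L] [Algebra (ZMod ℓ) L] [Field L']
    [Algebra (ZMod ℓ) L'] [DecidableEq L] [DecidableEq L'] (σ : L →ₐ[ZMod ℓ] L')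
    (P : (W⁄L).Point) (i : Fin 2) :
    (Point.map (W' := W) σ P).xRep i = σ (P.xRep i) := by
  rcases P with _ | ⟨x, y, h⟩
  · change (0 : (W⁄L').Point).xRep i = σ ((0 : (W⁄L).Point).xRep i)
    rw [Point.xRep_zero, Point.xRep_zero]
    fin_cases i <;> simp
  · rw [Point.map_some, Point.xRep_some, Point.xRep_some]
    fin_cases i <;> simp

/-! ### Frobenius on the odd points -/

variable [DecidableEq W.FunctionField]

theorem frobAlg_iota (z : W.FunctionField) :
    frobAlg ℓ W.FunctionField (iota W z) = iota W (frobAlg ℓ W.FunctionField z) := by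
  simp only [frobAlg_apply, map_pow]

/-- **Frobenius on the odd points.** -/
noncomputable def phi : oddPoints W →+ oddPoints W :=
  ((Point.map (W' := W) (frobAlg ℓ W.FunctionField)).comp (oddPoints W).subtype).codRestrict
    (oddPoints W) fun R => map_mem_oddPoints W _ (frobAlg_iota W) R.2

theorem coe_phi (R : oddPoints W) :
    ((phi W R : oddPoints W) : (W⁄W.FunctionField).Point) =
      Point.map (W' := W) (frobAlg ℓ W.FunctionField) R := rfl

variable {W}

/-- the `x`-coordinate of the Frobenius image. -/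
theorem xRep_frob {R : (W⁄W.FunctionField).Point} {U V : (ZMod ℓ)[X]} (h : XRep W R U V) :
    XRep W (Point.map (W' := W) (frobAlg ℓ W.FunctionField) R) (U ^ ℓ) (V ^ ℓ) := by
  refine ⟨h.1.pow, ?_⟩
  rw [xRep_map, xRep_map, frobAlg_apply, frobAlg_apply, map_pow, map_pow, ← mul_pow, ← mul_pow,
    h.2]

/-- **multiplicativity of the degree along Frobenius.** -/
theorem deg_phi (hΔ : W.Δ ≠ 0) (R : oddPoints W) :
    deg W hΔ (phi W R) = ℓ * deg W hΔ R := by
  obtain ⟨U, V, h⟩ := exists_xRep hΔ R.2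
  have h' : XRep W ((phi W R : oddPoints W) : (W⁄W.FunctionField).Point) (U ^ ℓ) (V ^ ℓ) :=
    xRep_frob h
  rw [deg_eq_of_xRep hΔ h, deg_eq_of_xRep hΔ h']
  unfold ht
  rw [natDegree_pow, natDegree_pow, Nat.mul_max_mul_left]
  push_cast
  ring

end Fermat.Agent.ES.Q58.FrobRel8B
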