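/-
Programme Q (S58), EC-side Eichler–Shimura relation in characteristic `ℓ`, part C (helper8):
**multiplicativity of the degree under composition.**

`k` a field, `W` a Weierstrass curve over `k` with `Δ ≠ 0`, `K = W.FunctionField`.  For odd points
`R = (x_R, y_R)` with `x_R` transcendental over `k` and `S`, the point `σ_R S` (`σ_R : K → K` the
substitution embedding `P₀ ↦ R`) is odd and `deg (σ_R S) = deg S * deg R`.

Proof: `deg S = [k(X) : k(f_S)]` for the rational function `f_S` with `f_S(x) = x_S`
(Mathlib: `RatFunc.finrank_eq_max_natDegree`), `x (σ_R S) = (f_S ∘ f_R)(x)`, and the tower law.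
-/
import Fermat.Agent.ES.Q58.FrobRel8A

set_option autoImplicit false
set_option linter.unusedSectionVars false

namespace Fermat.Agent.ES.Q58.FrobRel8C

open WeierstrassCurve WeierstrassCurve.Affine Polynomial IntermediateField
open Fermat.Agent.ES.Q58.IotaDescent23 Fermat.Agent.ES.Q58.SubstEmb17
  Fermat.Agent.ES.Q58.PLPoly2 Fermat.Agent.ES.Q58.FrobRel8A

variable {k : Type*} [Field k]

/-! ### composition of rational functions -/

/-- substitution `X ↦ g` in rational functions, for a transcendental (= non-constant) `g`. -/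
noncomputable def compHom (g : RatFunc k) (hg : Transcendental k g) : RatFunc k →ₐ[k] RatFunc k :=
  IsFractionRing.liftAlgHom (g := (aeval g : k[X] →ₐ[k] RatFunc k))
    (transcendental_iff_injective.mp hg)

theorem compHom_algebraMap (g : RatFunc k) (hg : Transcendental k g) (p : k[X]) :
    compHom g hg (algebraMap k[X] (RatFunc k) p) = aeval g p := by
  rw [compHom, IsFractionRing.liftAlgHom_apply, IsFractionRing.lift_algebraMap]
  rfl

theorem compHom_X (g : RatFunc k) (hg : Transcendental k g) : compHom g hg RatFunc.X = g := by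
  rw [← RatFunc.algebraMap_X, compHom_algebraMap, aeval_X]

/-- **the degree of a composition of rational functions** (tower law). -/
theorem finrank_compHom (f g : RatFunc k) (hg : Transcendental k g) :
    Module.finrank k⟮compHom g hg f⟯ (RatFunc k) =
      Module.finrank k⟮f⟯ (RatFunc k) * Module.finrank k⟮g⟯ (RatFunc k) := by
  set τ := compHom g hg with hτ
  have h1 : (k⟮f⟯ : IntermediateField k (RatFunc k)).map τ = k⟮τ f⟯ := by
    rw [adjoin_map, Set.image_singleton]
  have h2 : (⊤ : IntermediateField k (RatFunc k)).map τ = k⟮g⟯ := by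
    rw [← RatFunc.adjoin_X, adjoin_map, Set.image_singleton, hτ, compHom_X]
  have h3 : relfinrank k⟮τ f⟯ k⟮g⟯ = Module.finrank k⟮f⟯ (RatFunc k) := by
    rw [← h1, ← h2, relfinrank_map_map, relfinrank_top_right]
  have h4 : k⟮τ f⟯ ≤ k⟮g⟯ := by
    rw [← h1, ← h2]
    exact IntermediateField.map_mono τ le_top
  rw [← relfinrank_mul_finrank_top h4, h3]

/-! ### the rational function of an odd point -/

variable (W : Affine k)

theorem ratHom_mul_denom (f : RatFunc k) :
    ratHom W f * algebraMap k[X] W.FunctionField f.denom =
      algebraMap k[X] W.FunctionField f.num := by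
  have h := congrArg (ratHom W) (RatFunc.num_div_denom f)
  rw [map_div₀, ratHom_algebraMap, ratHom_algebraMap] at h
  have hd : algebraMap k[X] W.FunctionField f.denom ≠ 0 := by
    rw [Ne, map_eq_zero_iff _ (algebraMap_functionField_injective W)]
    exact RatFunc.denom_ne_zero f
  rw [← h, div_mul_cancel₀ _ hd]

variable {W}
variable [DecidableEq W.FunctionField]

/-- **the degree of an odd point is the degree of the rational function giving its
`x`-coordinate.** -/
theorem deg_eq_finrank (hΔ : W.Δ ≠ 0) {x y : W.FunctionField}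
    {h : (W⁄W.FunctionField).Nonsingular x y} (hS : Point.some x y h ∈ oddPoints W)
    {f : RatFunc k} (hf : ratHom W f = x) :
    deg W hΔ ⟨Point.some x y h, hS⟩ = (Module.finrank k⟮f⟯ (RatFunc k) : ℕ) := by
  have hrep : XRep W (Point.some x y h) f.num f.denom := by
    rw [xRep_some_iff]
    exact ⟨RatFunc.isCoprime_num_denom f, by rw [← hf]; exact ratHom_mul_denom W f⟩
  rw [deg_eq_of_xRep hΔ (R := ⟨Point.some x y h, hS⟩) hrep, RatFunc.finrank_eq_max_natDegree]
  rfl

/-- the `x`-coordinate of an odd point comes from a rational function. -/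
theorem exists_ratFunc (hΔ : W.Δ ≠ 0) {x y : W.FunctionField}
    {h : (W⁄W.FunctionField).Nonsingular x y} (hS : Point.some x y h ∈ oddPoints W) :
    ∃ f : RatFunc k, ratHom W f = x := by
  obtain ⟨U, V, hUV⟩ := exists_xRep hΔ hS
  have hV := hUV.denom_ne_zero
  rw [xRep_some_iff] at hUV
  refine ⟨algebraMap k[X] (RatFunc k) U / algebraMap k[X] (RatFunc k) V, ?_⟩
  have hd : algebraMap k[X] W.FunctionField V ≠ 0 := by
    rw [Ne, map_eq_zero_iff _ (algebraMap_functionField_injective W)]
    exact hV
  rw [map_div₀, ratHom_algebraMap, ratHom_algebraMap, div_eq_iff hd, hUV.2]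

/-! ### substitution embeddings at odd points -/

/-- the substitution embedding at an odd point commutes with the involution. -/
theorem substHom_iota {x y : W.FunctionField} {h : (W⁄W.FunctionField).Nonsingular x y}
    (hR : Point.some x y h ∈ oddPoints W) (hX : Transcendental k x) (z : W.FunctionField) :
    substHom W h.1 hX (iota W z) = iota W (substHom W h.1 hX z) := by
  have key : (substHom W h.1 hX).comp ((iota W : W.FunctionField ≃ₐ[k] W.FunctionField) :
        W.FunctionField →ₐ[k] W.FunctionField) =
      (((iota W : W.FunctionField ≃ₐ[k] W.FunctionField) :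
        W.FunctionField →ₐ[k] W.FunctionField)).comp (substHom W h.1 hX) := by
    apply SubstEmb17.algHom_ext
    · simp only [AlgHom.comp_apply, AlgEquiv.coe_toAlgHom, iota_xK, substHom_xK]
      exact (iota_x_of_mem_oddPoints W h hR).symm
    · simp only [AlgHom.comp_apply, AlgEquiv.coe_toAlgHom, iota_yK, substHom_yK, map_sub, map_neg,
        map_mul, substHom_xK, AlgHom.commutes]
      exact (iota_y_of_mem_oddPoints' W h hR).symm
  exact AlgHom.congr_fun key z

/-- the image of an odd point under the substitution embedding at an odd point is odd. -/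
theorem map_substHom_mem_oddPoints {x y : W.FunctionField}
    {h : (W⁄W.FunctionField).Nonsingular x y}
    (hR : Point.some x y h ∈ oddPoints W) (hX : Transcendental k x)
    {S : (W⁄W.FunctionField).Point} (hS : S ∈ oddPoints W) :
    Point.map (W' := W) (substHom W h.1 hX) S ∈ oddPoints W :=
  map_mem_oddPoints W _ (substHom_iota hR hX) hS

/-- `σ_R ∘ (f ↦ f(x)) = (f ↦ f(x)) ∘ (f ↦ f ∘ g)` when `g(x) = x_R`. -/
theorem substHom_ratHom {x y : W.FunctionField} {h : (W⁄W.FunctionField).Nonsingular x y}
    (hX : Transcendental k x) {g : RatFunc k} (hg : ratHom W g = x) (hgt : Transcendental k g)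
    (f : RatFunc k) :
    substHom W h.1 hX (ratHom W f) = ratHom W (compHom g hgt f) := by
  have key : ((substHom W h.1 hX).comp (ratHom W) : RatFunc k →+* W.FunctionField) =
      ((ratHom W).comp (compHom g hgt) : RatFunc k →+* W.FunctionField) := by
    apply IsFractionRing.ringHom_ext (A := k[X])
    intro p
    simp only [AlgHom.coe_toRingHom, AlgHom.comp_apply]
    rw [ratHom_algebraMap, substHom_algebraMap_polynomial, compHom_algebraMap,
      ← aeval_algHom_apply, hg]
  exact RingHom.congr_fun key f

theorem transcendental_of_ratHom {x : W.FunctionField} (hX : Transcendental k x)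
    {g : RatFunc k} (hg : ratHom W g = x) : Transcendental k g := by
  intro halg
  apply hX
  rw [← hg]
  exact halg.algHom (ratHom W)

/-- **multiplicativity of the degree under composition.** -/
theorem deg_map_substHom (hΔ : W.Δ ≠ 0) {x y : W.FunctionField}
    {h : (W⁄W.FunctionField).Nonsingular x y}
    (hR : Point.some x y h ∈ oddPoints W) (hX : Transcendental k x) (S : oddPoints W) :
    deg W hΔ ⟨Point.map (W' := W) (substHom W h.1 hX) S, map_substHom_mem_oddPoints hR hX S.2⟩ =
      deg W hΔ S * deg W hΔ ⟨Point.some x y h, hR⟩ := by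
  obtain ⟨S, hS⟩ := S
  rcases S with _ | ⟨xS, yS, hS'⟩
  · have e : (⟨Point.map (W' := W) (substHom W h.1 hX) (0 : (W⁄W.FunctionField).Point),
        map_substHom_mem_oddPoints hR hX hS⟩ : oddPoints W) = 0 := Subtype.ext (map_zero _)
    have e' : (⟨(0 : (W⁄W.FunctionField).Point), hS⟩ : oddPoints W) = 0 := rfl
    change deg W hΔ ⟨Point.map (W' := W) (substHom W h.1 hX) (0 : (W⁄W.FunctionField).Point), _⟩ =
      deg W hΔ ⟨(0 : (W⁄W.FunctionField).Point), hS⟩ * _
    rw [e, e', deg_zero, zero_mul]
  · obtain ⟨f, hf⟩ := exists_ratFunc hΔ hS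
    obtain ⟨g, hg⟩ := exists_ratFunc hΔ hR
    have hgt := transcendental_of_ratHom hX hg
    have hmap : Point.map (W' := W) (substHom W h.1 hX) (Point.some xS yS hS') =
        Point.some (substHom W h.1 hX xS) (substHom W h.1 hX yS)
          ((W.baseChange_nonsingular (substHom W h.1 hX).injective ..).mpr hS') :=
      Point.map_some _ _
    have hx' : ratHom W (compHom g hgt f) = substHom W h.1 hX xS := by
      rw [← substHom_ratHom (h := h) hX hg hgt, hf]
    have hodd := map_substHom_mem_oddPoints hR hX hS
    have e : (⟨Point.map (W' := W) (substHom W h.1 hX) (Point.some xS yS hS'), hodd⟩ :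
        oddPoints W) = ⟨Point.some (substHom W h.1 hX xS) (substHom W h.1 hX yS)
          ((W.baseChange_nonsingular (substHom W h.1 hX).injective ..).mpr hS'),
          hmap ▸ hodd⟩ := Subtype.ext hmap
    rw [e, deg_eq_finrank hΔ _ hx', deg_eq_finrank hΔ hS hf, deg_eq_finrank hΔ hR hg,
      finrank_compHom]
    push_cast
    ring

end Fermat.Agent.ES.Q58.FrobRel8C
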