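/-
Programme Q (S58), EC-side Eichler–Shimura relation in characteristic `ℓ`, part D (helper8):
pure algebra on a function `d : M → ℤ` with the exact parallelogram law (complements to
`QuadRel18`).

* `d_lin` : `d (m • e0 + n • e1) = m² d e0 + n² d e1 + m n B(e0, e1)`;
* `d_sub_pos` : if `d ≥ 0`, `d e0 = 1`, `d e1 = ℓ ≥ 2` then `d (e0 - e1) > 0`;
* `quad_rel_sq` : the relation `d (e2 - a • e1 + ℓ • e0) = 0`, `a = 1 + ℓ - d (e0 - e1)`, from
  multiplicativity along `φ` and `d ((1 - φ)² e0) = d ((1 - φ) e0) ^ 2`.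
-/
import Fermat.Agent.ES.Q58.QuadRel18

set_option autoImplicit false

namespace Fermat.Agent.ES.Q58.FrobRel8D

open Fermat.Agent.ES.Q58.QuadRel18

variable {M : Type*} [AddCommGroup M] {d : M → ℤ}
variable (hPL : ∀ x y : M, d (x + y) + d (x - y) = 2 * d x + 2 * d y)

include hPL

theorem d_lin (e0 e1 : M) (m n : ℤ) :
    d (m • e0 + n • e1) = m ^ 2 * d e0 + n ^ 2 * d e1 + m * n * polar d e0 e1 := by
  rw [d_add (d := d), d_zsmul hPL, d_zsmul hPL, polar_zsmul_left hPL, polar_zsmul_right hPL]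
  ring

theorem d_sub_pos (hnn : ∀ x : M, 0 ≤ d x) (e0 e1 : M) (ℓ : ℤ) (hℓ : 2 ≤ ℓ) (h0 : d e0 = 1)
    (h1 : d e1 = ℓ) : 0 < d (e0 - e1) := by
  by_contra hcon
  have hz : d (e0 - e1) = 0 := le_antisymm (not_lt.mp hcon) (hnn _)
  have hm : d (e0 - e1) = 1 + ℓ - polar d e0 e1 := by rw [d_sub' hPL, h0, h1]
  have h32 := d_lin hPL e0 e1 (-3) 2
  have hnn32 := hnn ((-3 : ℤ) • e0 + (2 : ℤ) • e1)
  rw [h32, h0, h1] at hnn32
  nlinarith

/-- **The relation from the Gram matrix**, with the square `(1 - φ)²` in place of the product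
`(1 - φ)(1 + φ)`. -/
theorem quad_rel_sq (e0 e1 e2 : M) (ℓ : ℤ)
    (h0 : d e0 = 1) (h1 : d e1 = ℓ) (h2 : d e2 = ℓ ^ 2)
    (h12 : d (e1 + e2) = ℓ * d (e0 + e1))
    (hsq : d (e0 - (2 : ℤ) • e1 + e2) = d (e0 - e1) ^ 2) :
    d (e2 - (1 + ℓ - d (e0 - e1)) • e1 + ℓ • e0) = 0 := by
  set t : ℤ := polar d e0 e1 with ht
  have hp : d (e0 + e1) = 1 + ℓ + t := by rw [d_add (d := d), h0, h1]
  have hm : d (e0 - e1) = 1 + ℓ - t := by rw [d_sub' hPL, h0, h1]
  have hB12 : polar d e1 e2 = ℓ * t := by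
    have := d_add (d := d) e1 e2
    rw [h12, hp, h1, h2] at this
    linarith
  have hB02 : polar d e0 e2 = t ^ 2 - 2 * ℓ := by
    have e : e0 - (2 : ℤ) • e1 + e2 = (e0 + (-2 : ℤ) • e1) + e2 := by
      rw [neg_smul, sub_eq_add_neg]
    have h3 := d_add (d := d) (e0 + (-2 : ℤ) • e1) e2
    rw [← e, hsq, hm, d_add (d := d) e0, d_zsmul hPL, polar_add_left hPL, polar_zsmul_right hPL,
      polar_zsmul_left hPL, h0, h1, h2, hB12, ← ht] at h3
    linarith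
  have ha : (1 + ℓ - d (e0 - e1)) = t := by rw [hm]; ring
  rw [ha]
  have e : e2 - t • e1 + ℓ • e0 = (e2 + (-t) • e1) + ℓ • e0 := by
    rw [neg_smul, sub_eq_add_neg]
  rw [e, d_add (d := d), d_add (d := d), d_zsmul hPL, d_zsmul hPL, polar_add_left hPL,
    polar_zsmul_right hPL, polar_zsmul_right hPL, polar_zsmul_left hPL, polar_zsmul_right hPL,
    h0, h1, h2, polar_comm e2 e1, hB12, polar_comm e2 e0, hB02, polar_comm e1 e0, ← ht]
  ring

end Fermat.Agent.ES.Q58.FrobRel8D
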