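/-
Programme Q (S58), EC-side Eichler–Shimura relation in characteristic `ℓ`, part E (helper8):
**Manin's lemma**: `deg ((1 - φ) P₀) = #E(𝔽_ℓ)`.

`W` a Weierstrass curve over `ZMod ℓ` with `Δ ≠ 0`, `K = W.FunctionField`, `P₀` the generic point,
`φ` the Frobenius.  The `x`-coordinate `U / V` of `R = P₀ - φ P₀` has a non-vanishing Wronskian
(else `R = φ R'`, `P₀ = φ (P₀ + R')` and `x` would be an `ℓ`-th power); over an algebraically closed
`Ω ⊇ K` the solutions `S ∈ E(Ω)` of `S - φ S = P₀` are in bijection with the roots of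
`U(T) - x V(T)`, all simple, and form a coset of `E(𝔽_ℓ)`.
-/
import Fermat.Agent.ES.Q58.FrobRel8B
import Fermat.Agent.ES.Q58.FrobRel8D
import Fermat.Agent.ES.Q58.InsepLeaves5
import Fermat.Agent.ES.Q58.InsepLeavesB5
import Fermat.Agent.ES.Q58.InsepPoly9

set_option autoImplicit false
set_option linter.unusedSectionVars false

namespace Fermat.Agent.ES.Q58.FrobRel8E

open WeierstrassCurve WeierstrassCurve.Affine Polynomial
open Fermat.Agent.ES.Q58.IotaDescent23 Fermat.Agent.ES.Q58.SubstEmb17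
  Fermat.Agent.ES.Q58.PLPoly2 Fermat.Agent.ES.Q58.FrobRel8A Fermat.Agent.ES.Q58.FrobRel8B

variable {ℓ : ℕ} [Fact ℓ.Prime] (W : Affine (ZMod ℓ))

/-! ### the fixed points of Frobenius are the `𝔽_ℓ`-points -/

section Fixed

variable {Ω : Type*} [Field Ω] [Algebra (ZMod ℓ) Ω] [DecidableEq Ω]

theorem exists_algebraMap_eq_of_pow_eq {u : Ω} (hu : u ^ ℓ = u) :
    ∃ a : ZMod ℓ, algebraMap (ZMod ℓ) Ω a = u := by
  have : CharP Ω ℓ := charP_of_algebra ℓ Ω
  obtain ⟨n, hn⟩ := (mem_bot_iff_intCast ℓ Ω).mp ((Subfield.mem_bot_iff_pow_eq_self Ω ℓ).mpr hu)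
  exact ⟨(n : ZMod ℓ), by rw [map_intCast, hn]⟩

/-- the base change from the prime field. -/
noncomputable abbrev bc : (W⁄(ZMod ℓ)).Point →+ (W⁄Ω).Point :=
  Point.map (W' := W) (Algebra.ofId (ZMod ℓ) Ω)

theorem bc_injective : Function.Injective (bc W (Ω := Ω)) := Point.map_injective _

/-- **the fixed points of Frobenius are the points over the prime field.** -/
theorem frob_fixed_iff (S : (W⁄Ω).Point) :
    Point.map (W' := W) (frobAlg ℓ Ω) S = S ↔ S ∈ Set.range (bc W (Ω := Ω)) := by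
  constructor
  · intro hS
    rcases S with _ | ⟨u, v, h⟩
    · exact ⟨0, map_zero _⟩
    · rw [Point.map_some] at hS
      simp only [Point.some.injEq, frobAlg_apply] at hS
      obtain ⟨a, rfl⟩ := exists_algebraMap_eq_of_pow_eq hS.1
      obtain ⟨b, rfl⟩ := exists_algebraMap_eq_of_pow_eq hS.2
      have h' : (W⁄(ZMod ℓ)).Nonsingular a b :=
        (W.baseChange_nonsingular (Algebra.ofId (ZMod ℓ) Ω).injective a b).mp h
      exact ⟨Point.some a b h', Point.map_some _ _⟩
  · rintro ⟨P, rfl⟩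
    rcases P with _ | ⟨a, b, h⟩
    · rfl
    · rw [bc, Point.map_some, Point.map_some]
      simp only [Point.some.injEq, frobAlg_apply]
      constructor
      · rw [← map_pow, ZMod.pow_card]
      · rw [← map_pow, ZMod.pow_card]

theorem baseChange_self : (W⁄(ZMod ℓ)) = W := by
  change W.map (algebraMap (ZMod ℓ) (ZMod ℓ)) = W
  rw [Algebra.algebraMap_self]
  exact WeierstrassCurve.map_id W

theorem card_baseChange_self : Nat.card (W⁄(ZMod ℓ)).Point = Nat.card W.Point :=
  congrArg (fun W' : Affine (ZMod ℓ) => Nat.card W'.Point) (baseChange_self W)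

/-- the number of fixed points of Frobenius. -/
theorem ncard_frob_fixed :
    {S : (W⁄Ω).Point | Point.map (W' := W) (frobAlg ℓ Ω) S = S}.ncard = Nat.card W.Point := by
  have : {S : (W⁄Ω).Point | Point.map (W' := W) (frobAlg ℓ Ω) S = S} = Set.range (bc W (Ω := Ω)) :=
    Set.ext fun S => frob_fixed_iff W S
  rw [this, Set.ncard_range_of_injective (bc_injective W), card_baseChange_self]

end Fixed

/-! ### the point `R₀ = P₀ - φ P₀` -/

section Generic

variable [DecidableEq W.FunctionField] (hΔ : W.Δ ≠ 0)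

/-- the Frobenius of `E(K)`. -/
noncomputable abbrev PhiK : (W⁄W.FunctionField).Point →+ (W⁄W.FunctionField).Point :=
  Point.map (W' := W) (frobAlg ℓ W.FunctionField)

/-- `R₀ = P₀ - φ P₀`. -/
noncomputable def R₀ : (W⁄W.FunctionField).Point :=
  genericPoint W hΔ - PhiK W (genericPoint W hΔ)

theorem coe_sub_phi :
    ((genericOdd hΔ - phi W (genericOdd hΔ) : oddPoints W) : (W⁄W.FunctionField).Point) =
      R₀ W hΔ := rfl

theorem R₀_mem : R₀ W hΔ ∈ oddPoints W :=
  coe_sub_phi W hΔ ▸ (genericOdd hΔ - phi W (genericOdd hΔ)).2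

theorem deg_phi_genericOdd : deg W hΔ (phi W (genericOdd hΔ)) = ℓ := by
  rw [deg_phi, deg_genericOdd, mul_one]

theorem deg_R₀_pos : 0 < deg W hΔ ⟨R₀ W hΔ, R₀_mem W hΔ⟩ := by
  have h2 : (2 : ℤ) ≤ (ℓ : ℤ) := by exact_mod_cast (Fact.out : ℓ.Prime).two_le
  exact FrobRel8D.d_sub_pos (deg_parallelogram hΔ) (deg_nonneg hΔ) (genericOdd hΔ)
    (phi W (genericOdd hΔ)) ℓ h2 (deg_genericOdd hΔ) (deg_phi_genericOdd W hΔ)

omit [Fact ℓ.Prime] in
/-- an odd point of positive degree is an affine point with transcendental `x`-coordinate. -/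
theorem exists_some_of_deg_pos {k : Type*} [Field k] {W : Affine k} [DecidableEq W.FunctionField]
    (hΔ : W.Δ ≠ 0) (R : (W⁄W.FunctionField).Point) (hmem : R ∈ oddPoints W)
    (hpos : 0 < deg W hΔ ⟨R, hmem⟩) :
    ∃ (xR yR : W.FunctionField) (h : (W⁄W.FunctionField).Nonsingular xR yR),
      R = Point.some xR yR h ∧ Transcendental k xR := by
  rcases R with _ | ⟨xR, yR, h⟩
  · exfalso
    have : (⟨(0 : (W⁄W.FunctionField).Point), hmem⟩ : oddPoints W) = 0 := rfl
    change 0 < deg W hΔ ⟨(0 : (W⁄W.FunctionField).Point), hmem⟩ at hpos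
    rw [this, deg_zero] at hpos
    exact lt_irrefl _ hpos
  · exact ⟨xR, yR, h, rfl, transcendental_of_deg_pos hΔ hmem hpos⟩

/-- `R₀` is an affine point with transcendental `x`-coordinate. -/
theorem exists_R₀_some : ∃ (xR yR : W.FunctionField) (h : (W⁄W.FunctionField).Nonsingular xR yR),
    R₀ W hΔ = Point.some xR yR h ∧ Transcendental (ZMod ℓ) xR :=
  exists_some_of_deg_pos hΔ _ (R₀_mem W hΔ) (deg_R₀_pos W hΔ)

include hΔ in
theorem baseChange_Δ_ne_zero {L : Type*} [Field L] [Algebra (ZMod ℓ) L] : (W⁄L).Δ ≠ 0 := by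
  change (W.map (algebraMap (ZMod ℓ) L)).Δ ≠ 0
  rw [WeierstrassCurve.map_Δ]
  exact fun h => hΔ ((map_eq_zero _).mp h)

/-- **the Wronskian of the `x`-coordinate of `R₀` does not vanish** (separability of `1 - φ`). -/
theorem wronskian_ne_zero {U V : (ZMod ℓ)[X]} (h : XRep W (R₀ W hΔ) U V) :
    derivative U * V ≠ U * derivative V := by
  intro hw
  obtain ⟨U₁, V₁, -, rfl, rfl⟩ := InsepPoly9.exists_pow_of_wronskian ℓ h.1 hw
  obtain ⟨xR, yR, hR, hRe, hXR⟩ := exists_R₀_some W hΔ
  rw [hRe] at h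
  have hV := h.denom_ne_zero
  rw [xRep_some_iff] at h
  have hV₁ : V₁ ≠ 0 := fun h0 => hV (by rw [h0, zero_pow (Fact.out : ℓ.Prime).ne_zero])
  have hcV₁ : algebraMap (ZMod ℓ)[X] W.FunctionField V₁ ≠ 0 := by
    rw [Ne, map_eq_zero_iff _ (algebraMap_functionField_injective W)]
    exact hV₁
  set w : W.FunctionField := algebraMap (ZMod ℓ)[X] W.FunctionField U₁ /
    algebraMap (ZMod ℓ)[X] W.FunctionField V₁ with hwdef
  have hxw : xR = w ^ ℓ := by
    rw [hwdef, div_pow, eq_div_iff (pow_ne_zero _ hcV₁), ← map_pow, ← map_pow]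
    exact h.2
  have hwnot : w ∉ Set.range (algebraMap (ZMod ℓ) W.FunctionField) := by
    rintro ⟨a, ha⟩
    apply hXR
    rw [hxw, ← ha, ← map_pow]
    exact isAlgebraic_algebraMap _
  have heq : (W.map (algebraMap (ZMod ℓ) W.FunctionField)).toAffine.Equation (w ^ ℓ) yR := by
    rw [← hxw]
    exact hR.1
  obtain ⟨y', hy', heq'⟩ := InsepLeavesB5.exists_frobenius_preimage_y_zmod ℓ W heq (by
    intro h2
    have : CharP (ZMod ℓ) 2 := h2 ▸ ZMod.charP ℓ
    exact InsepLeavesB5.a₁_mul_add_a₃_ne_zero W hΔ hwnot)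
  have hns' : (W⁄W.FunctionField).Nonsingular w y' :=
    (equation_iff_nonsingular_of_Δ_ne_zero (baseChange_Δ_ne_zero W hΔ)).mp heq'
  have hR' : PhiK W (Point.some w y' hns') = R₀ W hΔ := by
    rw [hRe, Point.map_some]
    simp only [Point.some.injEq, frobAlg_apply]
    exact ⟨hxw.symm, hy'⟩
  have hP₀ : genericPoint W hΔ = PhiK W (Point.some w y' hns' + genericPoint W hΔ) := by
    rw [map_add, hR', R₀, sub_add_cancel]
  generalize Point.some w y' hns' + genericPoint W hΔ = Q at hP₀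
  rcases Q with _ | ⟨xQ, yQ, hQ⟩
  · exact Point.some_ne_zero _ hP₀
  · rw [Point.map_some] at hP₀
    unfold IotaDescent23.genericPoint at hP₀
    simp only [Point.some.injEq, frobAlg_apply] at hP₀
    exact InsepLeaves5.x_ne_pow' W ℓ hΔ xQ hP₀.1.symm

end Generic

/-! ### the polynomial `U(T) - x V(T)` over an extension of `K` -/

section Poly

variable {Ω : Type*} [Field Ω] [Algebra (ZMod ℓ) Ω] (j : W.FunctionField →ₐ[ZMod ℓ] Ω)

theorem transcendental_j_xK : Transcendental (ZMod ℓ) (j (xK W)) :=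
  transcendental_map j (transcendental_xK W)

/-- the polynomial `U(T) - x V(T)`. -/
noncomputable def mPoly (U V : (ZMod ℓ)[X]) : Polynomial Ω :=
  U.map (algebraMap (ZMod ℓ) Ω) - C (j (xK W)) * V.map (algebraMap (ZMod ℓ) Ω)

theorem eval_mPoly (U V : (ZMod ℓ)[X]) (u : Ω) :
    (mPoly W j U V).eval u = aeval u U - j (xK W) * aeval u V := by
  simp only [mPoly, eval_sub, eval_mul, eval_C, eval_map_algebraMap]

theorem eval_derivative_mPoly (U V : (ZMod ℓ)[X]) (u : Ω) :
    (derivative (mPoly W j U V)).eval u =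
      aeval u (derivative U) - j (xK W) * aeval u (derivative V) := by
  simp only [mPoly, derivative_sub, derivative_mul, derivative_C, zero_mul, zero_add,
    derivative_map, eval_sub, eval_mul, eval_C, eval_map_algebraMap]

/-- `x` is not a constant. -/
theorem j_xK_ne_algebraMap (a : ZMod ℓ) : j (xK W) ≠ algebraMap (ZMod ℓ) Ω a := by
  intro h
  apply transcendental_j_xK W j
  rw [h]
  exact isAlgebraic_algebraMap _

theorem natDegree_mPoly {U V : (ZMod ℓ)[X]} (hUV : IsCoprime U V) :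
    (mPoly W j U V).natDegree = ht U V := by
  have hinj : Function.Injective (algebraMap (ZMod ℓ) Ω) := (algebraMap (ZMod ℓ) Ω).injective
  apply le_antisymm
  · unfold mPoly
    refine (natDegree_sub_le_of_le (natDegree_map_le.trans (natDegree_le_ht_left U V))
      ((natDegree_C_mul_le _ _).trans (natDegree_map_le.trans (natDegree_le_ht_right U V)))).trans
      (by simp)
  · apply le_natDegree_of_ne_zero
    unfold mPoly
    rw [coeff_sub, coeff_C_mul, coeff_map, coeff_map]
    intro h0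
    rcases top_ne_zero (ne_zero_of_isCoprime hUV) with hu | hv
    · by_cases hv : V.coeff (ht U V) = 0
      · rw [hv, map_zero, mul_zero, sub_zero] at h0
        exact hu (hinj (by rw [h0, map_zero]))
      · apply j_xK_ne_algebraMap W j (U.coeff (ht U V) / V.coeff (ht U V))
        have hv' : algebraMap (ZMod ℓ) Ω (V.coeff (ht U V)) ≠ 0 := by
          rw [Ne, map_eq_zero]; exact hv
        rw [map_div₀, eq_div_iff hv']
        exact (sub_eq_zero.mp h0).symm
    · apply j_xK_ne_algebraMap W j (U.coeff (ht U V) / V.coeff (ht U V))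
      have hv' : algebraMap (ZMod ℓ) Ω (V.coeff (ht U V)) ≠ 0 := by
        rw [Ne, map_eq_zero]; exact hv
      rw [map_div₀, eq_div_iff hv']
      exact (sub_eq_zero.mp h0).symm

theorem aeval_ne_zero_of_transcendental {u : Ω} (hu : Transcendental (ZMod ℓ) u)
    {V : (ZMod ℓ)[X]} (hV : V ≠ 0) : aeval u V ≠ 0 :=
  fun h => hu ⟨V, hV, h⟩

/-- the roots of `U(T) - x V(T)` are transcendental over the prime field. -/
theorem transcendental_of_root {U V : (ZMod ℓ)[X]} (hUV : IsCoprime U V) {u : Ω}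
    (hu : (mPoly W j U V).eval u = 0) : Transcendental (ZMod ℓ) u := by
  intro halg
  rw [eval_mPoly, sub_eq_zero] at hu
  set F := algebraicClosure (ZMod ℓ) Ω with hF
  have huF : u ∈ F := mem_algebraicClosure_iff.mpr halg
  have hmem : ∀ P : (ZMod ℓ)[X], aeval u P ∈ F := by
    intro P
    have := IntermediateField.aeval_coe F (⟨u, huF⟩ : F) P
    rw [this]
    exact SetLike.coe_mem _
  by_cases hV : aeval u V = 0
  · rw [hV, mul_zero] at hu
    obtain ⟨a, b, hab⟩ := hUV
    have := congrArg (aeval u) hab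
    rw [map_add, map_mul, map_mul, hu, hV, mul_zero, mul_zero, add_zero, map_one] at this
    exact zero_ne_one this
  · have hx : j (xK W) = aeval u U / aeval u V := by
      rw [eq_div_iff hV, hu]
    apply transcendental_j_xK W j
    rw [hx]
    exact mem_algebraicClosure_iff.mp (F.div_mem (hmem U) (hmem V))

/-- the roots of `U(T) - x V(T)` are simple if the Wronskian does not vanish. -/
theorem derivative_ne_zero_of_root {U V : (ZMod ℓ)[X]} (hUV : IsCoprime U V)
    (hW : derivative U * V ≠ U * derivative V) {u : Ω}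
    (hu : (mPoly W j U V).eval u = 0) : (derivative (mPoly W j U V)).eval u ≠ 0 := by
  intro hd
  have htr := transcendental_of_root W j hUV hu
  rw [eval_mPoly, sub_eq_zero] at hu
  rw [eval_derivative_mPoly, sub_eq_zero] at hd
  apply htr
  refine ⟨derivative U * V - U * derivative V, sub_ne_zero.mpr hW, ?_⟩
  rw [map_sub, map_mul, map_mul, hu, hd]
  ring

/-- **the number of roots of `U(T) - x V(T)` in an algebraically closed field.** -/
theorem card_roots_mPoly [IsAlgClosed Ω] [DecidableEq Ω] {U V : (ZMod ℓ)[X]} (hUV : IsCoprime U V)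
    (hW : derivative U * V ≠ U * derivative V) (hpos : 0 < ht U V) :
    (mPoly W j U V).roots.toFinset.card = ht U V := by
  have hm0 : mPoly W j U V ≠ 0 := by
    intro h0
    have := natDegree_mPoly W j hUV
    rw [h0, natDegree_zero] at this
    omega
  have hnodup : (mPoly W j U V).roots.Nodup := by
    rw [Multiset.nodup_iff_count_le_one]
    intro a
    rw [count_roots]
    by_contra hcon
    push Not at hcon
    obtain ⟨h1, h2⟩ := (one_lt_rootMultiplicity_iff_isRoot hm0).mp hcon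
    exact derivative_ne_zero_of_root W j hUV hW h1 h2
  rw [Multiset.toFinset_card_of_nodup hnodup, ← (IsAlgClosed.splits _).natDegree_eq_card_roots,
    natDegree_mPoly W j hUV]

end Poly

/-! ### the solutions of `S - φ S = P₀` -/

section Count

variable [DecidableEq W.FunctionField] (hΔ : W.Δ ≠ 0)
variable {Ω : Type*} [Field Ω] [Algebra (ZMod ℓ) Ω] [DecidableEq Ω]
  (j : W.FunctionField →ₐ[ZMod ℓ] Ω)

/-- the Frobenius of `E(Ω)`. -/
noncomputable abbrev PhiL (L : Type*) [Field L] [Algebra (ZMod ℓ) L] [DecidableEq L] :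
    (W⁄L).Point →+ (W⁄L).Point :=
  Point.map (W' := W) (frobAlg ℓ L)

/-- the image of the generic point in `E(Ω)`. -/
noncomputable abbrev jP₀ : (W⁄Ω).Point := Point.map (W' := W) j (genericPoint W hΔ)

theorem jP₀_eq : jP₀ W hΔ j = Point.some (j (xK W)) (j (yK W))
    ((W.baseChange_nonsingular j.injective ..).mpr (nonsingular_xK_yK W hΔ)) :=
  Point.map_some _ _

theorem genericPoint_ne_neg : genericPoint W hΔ ≠ -genericPoint W hΔ := by
  intro h
  unfold IotaDescent23.genericPoint at h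
  rw [Point.neg_some] at h
  simp only [Point.some.injEq, true_and] at h
  apply two_yK_ne_zero W hΔ
  have h2 := iota_yK W
  rw [iota_negY_eq, ← h] at h2
  linear_combination h2

theorem jP₀_ne_neg : jP₀ W hΔ j ≠ -jP₀ W hΔ j := by
  intro h
  apply genericPoint_ne_neg W hΔ
  apply Point.map_injective (W' := W) j
  rw [map_neg]
  exact h

/-- the solution set of `S - φ S = P₀`. -/
def Sol : Set (W⁄Ω).Point := {S | S - PhiL W Ω S = jP₀ W hΔ j}

/-- **the substitution principle**: `σ_S (R₀) = S - φ S`. -/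
theorem map_substHom_R₀ {u v : Ω} (hS : (W⁄Ω).Nonsingular u v) (hX : Transcendental (ZMod ℓ) u) :
    Point.map (W' := W) (substHom W hS.1 hX) (R₀ W hΔ) =
      Point.some u v hS - PhiL W Ω (Point.some u v hS) := by
  rw [R₀, map_sub, map_substHom_genericPoint W hΔ hS hX, PhiK, map_frobAlg_comm,
    map_substHom_genericPoint W hΔ hS hX]

/-- the `x`-coordinate of `σ_S (R₀)`. -/
theorem substHom_xR {xR yR : W.FunctionField} {hR : (W⁄W.FunctionField).Nonsingular xR yR}
    {U V : (ZMod ℓ)[X]} (hrep : XRep W (Point.some xR yR hR) U V) {u v : Ω}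
    (hS : (W⁄Ω).Nonsingular u v) (hX : Transcendental (ZMod ℓ) u) :
    substHom W hS.1 hX xR * aeval u V = aeval u U := by
  rw [xRep_some_iff] at hrep
  have := congrArg (substHom W hS.1 hX) hrep.2
  rwa [map_mul, substHom_algebraMap_polynomial, substHom_algebraMap_polynomial] at this

/-- the `x`-coordinate of a point (`0` at infinity). -/
def xc : (W⁄Ω).Point → Ω
  | .zero => 0
  | .some x _ _ => x

theorem xc_some {u v : Ω} (h : (W⁄Ω).Nonsingular u v) : xc W (Point.some u v h) = u := rfl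

/-- a solution is an affine point with transcendental `x`-coordinate. -/
theorem exists_some_of_mem_Sol {S : (W⁄Ω).Point} (hS : S ∈ Sol W hΔ j) :
    ∃ (u v : Ω) (h : (W⁄Ω).Nonsingular u v), S = Point.some u v h ∧
      Transcendental (ZMod ℓ) u := by
  have hS' : S - PhiL W Ω S = jP₀ W hΔ j := hS
  rcases S with _ | ⟨u, v, h⟩
  · exfalso
    change (0 : (W⁄Ω).Point) - PhiL W Ω 0 = _ at hS'
    rw [map_zero, sub_zero, jP₀_eq] at hS'
    exact Point.some_ne_zero _ hS'.symm
  · refine ⟨u, v, h, rfl, fun halg => ?_⟩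
    have h1 : Point.some u v h ∈ algPoints W Ω := (some_mem_algPoints_iff W h).mpr halg
    have h2 : PhiL W Ω (Point.some u v h) ∈ algPoints W Ω := by
      rw [PhiL, Point.map_some, some_mem_algPoints_iff, frobAlg_apply]
      exact halg.pow ℓ
    have h3 := sub_mem h1 h2
    rw [hS', jP₀_eq, some_mem_algPoints_iff] at h3
    exact transcendental_j_xK W j h3

variable {xR yR : W.FunctionField} {hR : (W⁄W.FunctionField).Nonsingular xR yR}
  {U V : (ZMod ℓ)[X]}

/-- the `x`-coordinate of a solution is a root of `U(T) - x V(T)`. -/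
theorem eval_xc_of_mem_Sol (hRe : R₀ W hΔ = Point.some xR yR hR)
    (hrep : XRep W (Point.some xR yR hR) U V) {S : (W⁄Ω).Point} (hS : S ∈ Sol W hΔ j) :
    (mPoly W j U V).eval (xc W S) = 0 := by
  obtain ⟨u, v, h, rfl, hX⟩ := exists_some_of_mem_Sol W hΔ j hS
  have h1 := map_substHom_R₀ W hΔ h hX
  have hS' : Point.some u v h - PhiL W Ω (Point.some u v h) = jP₀ W hΔ j := hS
  rw [hS', hRe, Point.map_some, jP₀_eq] at h1
  simp only [Point.some.injEq] at h1
  have h2 := substHom_xR W hrep h hX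
  rw [h1.1] at h2
  rw [xc_some, eval_mPoly, h2, sub_self]

/-- the `x`-coordinate is injective on the solutions. -/
theorem xc_injOn_Sol {S S' : (W⁄Ω).Point} (hS : S ∈ Sol W hΔ j) (hS' : S' ∈ Sol W hΔ j)
    (hx : xc W S = xc W S') : S = S' := by
  obtain ⟨u, v, h, rfl, -⟩ := exists_some_of_mem_Sol W hΔ j hS
  obtain ⟨u', v', h', rfl, -⟩ := exists_some_of_mem_Sol W hΔ j hS'
  rw [xc_some, xc_some] at hx
  subst hx
  have hrep : (Point.some u v h).xRep = (Point.some u v' h').xRep := by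
    rw [Point.xRep_some, Point.xRep_some]
  rcases Point.eq_or_eq_neg_of_xRep_eq_xRep hrep with h1 | h1
  · exact h1
  · exfalso
    have e1 : Point.some u v h - PhiL W Ω (Point.some u v h) = jP₀ W hΔ j := hS
    have e2 : Point.some u v' h' - PhiL W Ω (Point.some u v' h') = jP₀ W hΔ j := hS'
    rw [h1, map_neg, ← neg_sub', e2] at e1
    exact jP₀_ne_neg W hΔ j e1.symm

include hΔ in
/-- on an algebraically closed field every `x` is the `x`-coordinate of a point. -/
theorem exists_y [IsAlgClosed Ω] (u : Ω) : ∃ v : Ω, (W⁄Ω).Nonsingular u v := by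
  set b : Ω := algebraMap (ZMod ℓ) Ω W.a₁ * u + algebraMap (ZMod ℓ) Ω W.a₃ with hb
  set c : Ω := -(u ^ 3 + algebraMap (ZMod ℓ) Ω W.a₂ * u ^ 2 + algebraMap (ZMod ℓ) Ω W.a₄ * u +
    algebraMap (ZMod ℓ) Ω W.a₆) with hc
  have hdeg : (C (1 : Ω) * X ^ 2 + C b * X + C c).degree ≠ 0 := by
    rw [degree_quadratic one_ne_zero]
    norm_num
  obtain ⟨v, hv⟩ := IsAlgClosed.exists_root _ hdeg
  refine ⟨v, (equation_iff_nonsingular_of_Δ_ne_zero (baseChange_Δ_ne_zero W hΔ)).mp ?_⟩
  rw [equation_iff]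
  simp only [baseChange_a₁, baseChange_a₂, baseChange_a₃, baseChange_a₄, baseChange_a₆]
  simp only [IsRoot, eval_add, eval_mul, eval_C, eval_pow, eval_X, hb, hc] at hv
  linear_combination hv

/-- every root of `U(T) - x V(T)` is the `x`-coordinate of a solution. -/
theorem exists_mem_Sol_of_root [IsAlgClosed Ω] (hRe : R₀ W hΔ = Point.some xR yR hR)
    (hrep : XRep W (Point.some xR yR hR) U V) {u : Ω} (hu : (mPoly W j U V).eval u = 0) :
    ∃ S ∈ Sol W hΔ j, xc W S = u := by
  have hX := transcendental_of_root W j hrep.1 hu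
  obtain ⟨v, h⟩ := exists_y W hΔ u
  have h1 := map_substHom_R₀ W hΔ h hX
  have h2 := substHom_xR W hrep h hX
  have hV : aeval u V ≠ 0 := aeval_ne_zero_of_transcendental hX hrep.denom_ne_zero
  rw [eval_mPoly, sub_eq_zero] at hu
  have hx : substHom W h.1 hX xR = j (xK W) := by
    apply mul_right_cancel₀ hV
    rw [h2, hu]
  rw [hRe, Point.map_some] at h1
  have hxRep : (Point.some u v h - PhiL W Ω (Point.some u v h)).xRep = (jP₀ W hΔ j).xRep := by
    rw [← h1, jP₀_eq, Point.xRep_some, Point.xRep_some, hx]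
  rcases Point.eq_or_eq_neg_of_xRep_eq_xRep hxRep with h3 | h3
  · exact ⟨Point.some u v h, h3, rfl⟩
  · refine ⟨-Point.some u v h, ?_, ?_⟩
    · change -Point.some u v h - PhiL W Ω (-Point.some u v h) = jP₀ W hΔ j
      rw [map_neg, ← neg_sub', h3, neg_neg]
    · rw [Point.neg_some, xc_some]

/-- the solutions form a coset of the fixed points of Frobenius. -/
theorem ncard_Sol_eq {S₁ : (W⁄Ω).Point} (hS₁ : S₁ ∈ Sol W hΔ j) :
    (Sol W hΔ j).ncard = Nat.card W.Point := by
  have hS₁' : S₁ - PhiL W Ω S₁ = jP₀ W hΔ j := hS₁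
  have : Sol W hΔ j = (fun T => T + S₁) '' {T : (W⁄Ω).Point | PhiL W Ω T = T} := by
    ext S
    constructor
    · intro hS
      have hS' : S - PhiL W Ω S = jP₀ W hΔ j := hS
      refine ⟨S - S₁, ?_, sub_add_cancel _ _⟩
      change PhiL W Ω (S - S₁) = S - S₁
      rw [map_sub]
      have e1 : PhiL W Ω S = S - jP₀ W hΔ j := by rw [← hS']; abel
      have e2 : PhiL W Ω S₁ = S₁ - jP₀ W hΔ j := by rw [← hS₁']; abel
      rw [e1, e2]
      abel
    · rintro ⟨T, hT, rfl⟩
      have hT' : PhiL W Ω T = T := hT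
      change T + S₁ - PhiL W Ω (T + S₁) = jP₀ W hΔ j
      rw [map_add, hT', ← hS₁']
      abel
  rw [this, Set.ncard_image_of_injective _ (add_left_injective S₁)]
  exact ncard_frob_fixed W

include j in
/-- **Manin's lemma**, height form. -/
theorem ht_eq_card [IsAlgClosed Ω] (hRe : R₀ W hΔ = Point.some xR yR hR)
    (hrep : XRep W (Point.some xR yR hR) U V) (hpos : 0 < ht U V) :
    ht U V = Nat.card W.Point := by
  have hW : derivative U * V ≠ U * derivative V := wronskian_ne_zero W hΔ (hRe ▸ hrep)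
  have hcard := card_roots_mPoly W j hrep.1 hW hpos
  have hm0 : mPoly W j U V ≠ 0 := by
    intro h0
    have := natDegree_mPoly W j hrep.1
    rw [h0, natDegree_zero] at this
    omega
  have hbij : (Sol W hΔ j).ncard = ((mPoly W j U V).roots.toFinset : Set Ω).ncard := by
    refine Set.ncard_congr (fun S _ => xc W S) ?_ ?_ ?_
    · intro S hS
      rw [Finset.mem_coe, Multiset.mem_toFinset, mem_roots hm0]
      exact eval_xc_of_mem_Sol W hΔ j hRe hrep hS
    · intro S S' hS hS' hx
      exact xc_injOn_Sol W hΔ j hS hS' hx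
    · intro u hu
      rw [Finset.mem_coe, Multiset.mem_toFinset, mem_roots hm0] at hu
      obtain ⟨S, hS, hx⟩ := exists_mem_Sol_of_root W hΔ j hRe hrep hu
      exact ⟨S, hS, hx⟩
  rw [Set.ncard_coe_finset, hcard] at hbij
  -- a solution exists
  have hne : ∃ S₁, S₁ ∈ Sol W hΔ j := by
    have hdeg : (mPoly W j U V).degree ≠ 0 := by
      rw [degree_eq_natDegree hm0, natDegree_mPoly W j hrep.1]
      exact_mod_cast hpos.ne'
    obtain ⟨u, hu⟩ := IsAlgClosed.exists_root _ hdeg
    obtain ⟨S, hS, -⟩ := exists_mem_Sol_of_root W hΔ j hRe hrep hu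
    exact ⟨S, hS⟩
  obtain ⟨S₁, hS₁⟩ := hne
  rw [← hbij, ncard_Sol_eq W hΔ j hS₁]

end Count

/-! ### Manin's lemma -/

section Manin

variable [DecidableEq W.FunctionField] (hΔ : W.Δ ≠ 0)

/-- **Manin's lemma**: `deg ((1 - φ) P₀) = #E(𝔽_ℓ)`. -/
theorem deg_sub_phi_genericOdd :
    deg W hΔ (genericOdd hΔ - phi W (genericOdd hΔ)) = (Nat.card W.Point : ℤ) := by
  classical
  obtain ⟨xR, yR, hR, hRe, -⟩ := exists_R₀_some W hΔ
  obtain ⟨U, V, hrep⟩ := exists_xRep hΔ (R₀_mem W hΔ)
  have hdeg : deg W hΔ (genericOdd hΔ - phi W (genericOdd hΔ)) = (ht U V : ℕ) :=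
    deg_eq_of_xRep hΔ (R := genericOdd hΔ - phi W (genericOdd hΔ)) hrep
  have hpos : 0 < ht U V := by
    have := deg_R₀_pos W hΔ
    have e : (⟨R₀ W hΔ, R₀_mem W hΔ⟩ : oddPoints W) =
        genericOdd hΔ - phi W (genericOdd hΔ) := Subtype.ext (coe_sub_phi W hΔ).symm
    rw [e, hdeg] at this
    exact_mod_cast this
  rw [hdeg]
  have hrep' : XRep W (Point.some xR yR hR) U V := hRe ▸ hrep
  exact_mod_cast ht_eq_card W hΔ
    (IsScalarTower.toAlgHom (ZMod ℓ) W.FunctionField (AlgebraicClosure W.FunctionField))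
    hRe hrep' hpos

end Manin

end Fermat.Agent.ES.Q58.FrobRel8E
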