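/-
Programme Q (S58), EC-side Eichler–Shimura relation in characteristic `ℓ`, part F (helper8):
**the Frobenius relation `φ² - a_ℓ φ + ℓ = 0` on `E(L)`, for every field `L ⊇ 𝔽_ℓ`.**

`W` a Weierstrass curve over `ZMod ℓ` with `Δ ≠ 0`, `a_ℓ = ℓ + 1 - #W(𝔽_ℓ)`.

* the degree function `d` on the odd points of `E(K)`, `K = 𝔽_ℓ(E)`, is an exact quadratic form,
  multiplicative along `φ` and along substitutions, with `d ((1 - φ) P₀) = #W(𝔽_ℓ)` (Manin); the
  Gram-matrix computation `quad_rel_sq` gives `d (Ψ P₀) = 0`, `Ψ = φ² - a_ℓ φ + ℓ`;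
* a point of degree `0` with `σ_{nP₀} Z = n Z` (`n = 2, 3`) is `0`, so `Ψ P₀ = 0`;
* every point `Q` of `E(Ω)`, `Ω ⊇ K`, is `σ_Q P₀` or a difference of two such, so `Ψ = 0` on `E(Ω)`;
* every field `L ⊇ 𝔽_ℓ` embeds together with `K` in a field `Ω`.
-/
import Fermat.Prelude.Def_FLTPrelim_Modularity
import Fermat.Agent.ES.Q58.FrobRel8C
import Fermat.Agent.ES.Q58.FrobRel8E

set_option autoImplicit false
set_option linter.unusedSectionVars false

namespace Fermat.Agent.ES.Q58.FrobRel8F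

open WeierstrassCurve WeierstrassCurve.Affine Polynomial
open Fermat.Agent.ES.Q58.IotaDescent23 Fermat.Agent.ES.Q58.SubstEmb17
  Fermat.Agent.ES.Q58.PLPoly2 Fermat.Agent.ES.Q58.FrobRel8A Fermat.Agent.ES.Q58.FrobRel8B
  Fermat.Agent.ES.Q58.FrobRel8C Fermat.Agent.ES.Q58.FrobRel8E

variable {ℓ : ℕ} [Fact ℓ.Prime] (W : Affine (ZMod ℓ))

/-! ### the operator `Ψ = φ² - a φ + ℓ` -/

section Psi

variable (a : ℤ) (L : Type*) [Field L] [Algebra (ZMod ℓ) L] [DecidableEq L]

/-- the operator `Ψ = φ² - a φ + ℓ` on `E(L)`. -/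
noncomputable def Psi : (W⁄L).Point →+ (W⁄L).Point :=
  (PhiL W L).comp (PhiL W L) - a • PhiL W L + (ℓ : ℤ) • AddMonoidHom.id _

theorem Psi_apply (Q : (W⁄L).Point) :
    Psi W a L Q = PhiL W L (PhiL W L Q) - a • PhiL W L Q + (ℓ : ℤ) • Q := rfl

variable {L}

/-- `Ψ` is natural in the field. -/
theorem map_Psi {L' : Type*} [Field L'] [Algebra (ZMod ℓ) L'] [DecidableEq L']
    (σ : L →ₐ[ZMod ℓ] L') (Q : (W⁄L).Point) :
    Point.map (W' := W) σ (Psi W a L Q) = Psi W a L' (Point.map (W' := W) σ Q) := by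
  rw [Psi_apply, Psi_apply, map_add, map_sub, map_zsmul, map_zsmul]
  unfold PhiL
  rw [map_frobAlg_comm, map_frobAlg_comm]

end Psi

/-! ### `deg (Ψ P₀) = 0` -/

section Generic

variable [DecidableEq W.FunctionField] (hΔ : W.Δ ≠ 0)

/-- the trace of Frobenius. -/
noncomputable def aℓ : ℤ := 1 + (ℓ : ℤ) - (Nat.card W.Point : ℤ)

/-- `Ψ P₀`, as an odd point. -/
noncomputable def Zodd : oddPoints W :=
  phi W (phi W (genericOdd hΔ)) - (aℓ W) • phi W (genericOdd hΔ) + (ℓ : ℤ) • genericOdd hΔ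

theorem coe_Zodd : ((Zodd W hΔ : oddPoints W) : (W⁄W.FunctionField).Point) =
    Psi W (aℓ W) W.FunctionField (genericPoint W hΔ) := rfl

/-- `(1 - φ)² P₀ = σ_R ((1 - φ) P₀)`, `R = (1 - φ) P₀`. -/
theorem deg_sq :
    deg W hΔ (genericOdd hΔ - (2 : ℤ) • phi W (genericOdd hΔ) + phi W (phi W (genericOdd hΔ))) =
      deg W hΔ (genericOdd hΔ - phi W (genericOdd hΔ)) ^ 2 := by
  obtain ⟨xR, yR, hR, hRe, hX⟩ := exists_R₀_some W hΔ
  have hmem : Point.some xR yR hR ∈ oddPoints W := hRe ▸ R₀_mem W hΔ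
  have e1 : (⟨Point.some xR yR hR, hmem⟩ : oddPoints W) =
      genericOdd hΔ - phi W (genericOdd hΔ) := Subtype.ext (by rw [coe_sub_phi, hRe])
  have key := deg_map_substHom hΔ hmem hX (genericOdd hΔ - phi W (genericOdd hΔ))
  have e2 : (⟨Point.map (W' := W) (substHom W hR.1 hX)
      ((genericOdd hΔ - phi W (genericOdd hΔ) : oddPoints W) : (W⁄W.FunctionField).Point),
      map_substHom_mem_oddPoints hmem hX (genericOdd hΔ - phi W (genericOdd hΔ)).2⟩ : oddPoints W) =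
      genericOdd hΔ - (2 : ℤ) • phi W (genericOdd hΔ) + phi W (phi W (genericOdd hΔ)) := by
    apply Subtype.ext
    change Point.map (W' := W) (substHom W hR.1 hX)
      ((genericOdd hΔ - phi W (genericOdd hΔ) : oddPoints W) : (W⁄W.FunctionField).Point) = _
    rw [coe_sub_phi, map_substHom_R₀ W hΔ hR hX, ← hRe]
    simp only [AddSubgroup.coe_add, AddSubgroup.coe_sub, AddSubgroup.coe_zsmul, coe_phi]
    unfold R₀ PhiK PhiL
    rw [map_sub]
    change genericPoint W hΔ - _ - (_ - _) = genericPoint W hΔ - _ + _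
    abel
  rw [e2, e1] at key
  rw [key, sq]

/-- **`deg (Ψ P₀) = 0`.** -/
theorem deg_Zodd : deg W hΔ (Zodd W hΔ) = 0 := by
  have h0 := deg_genericOdd hΔ
  have h1 := deg_phi_genericOdd W hΔ
  have h2 : deg W hΔ (phi W (phi W (genericOdd hΔ))) = (ℓ : ℤ) ^ 2 := by
    rw [deg_phi, h1, sq]
  have h12 : deg W hΔ (phi W (genericOdd hΔ) + phi W (phi W (genericOdd hΔ))) =
      ℓ * deg W hΔ (genericOdd hΔ + phi W (genericOdd hΔ)) := by
    rw [← map_add, deg_phi]
  have key := FrobRel8D.quad_rel_sq (deg_parallelogram hΔ) (genericOdd hΔ)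
    (phi W (genericOdd hΔ)) (phi W (phi W (genericOdd hΔ))) (ℓ : ℤ) h0 h1 h2 h12 (deg_sq W hΔ)
  rw [deg_sub_phi_genericOdd] at key
  exact key

/-! ### `Ψ P₀ = 0` -/

omit [Fact ℓ.Prime] in
/-- multiplication by `n ≠ 0` on the generic point is a substitution. -/
theorem exists_subst_zsmul {k : Type*} [Field k] (W : Affine k) [DecidableEq W.FunctionField]
    (hΔ : W.Δ ≠ 0) (n : ℤ) (hn : n ≠ 0) :
    ∃ σ : W.FunctionField →ₐ[k] W.FunctionField,
      Point.map (W' := W) σ (genericPoint W hΔ) = n • genericPoint W hΔ := by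
  have hdeg : deg W hΔ (n • genericOdd hΔ) = n ^ 2 := by
    rw [QuadRel18.d_zsmul (deg_parallelogram hΔ), deg_genericOdd, mul_one]
  have hpos : 0 < deg W hΔ ⟨n • genericPoint W hΔ, (n • genericOdd hΔ).2⟩ := by
    have e : (⟨n • genericPoint W hΔ, (n • genericOdd hΔ).2⟩ : oddPoints W) = n • genericOdd hΔ :=
      rfl
    rw [e, hdeg]
    positivity
  obtain ⟨xR, yR, h, he, hX⟩ := exists_some_of_deg_pos hΔ _ _ hpos
  exact ⟨substHom W h.1 hX, by rw [map_substHom_genericPoint W hΔ h hX, he]⟩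

omit [Fact ℓ.Prime] in
/-- two affine points with the same `x`-coordinate are equal or opposite. -/
theorem eq_or_eq_neg_of_x_eq {F : Type*} [Field F] [DecidableEq F] {W : Affine F} {x y y' : F}
    (h : W.Nonsingular x y) (h' : W.Nonsingular x y') :
    Point.some x y' h' = Point.some x y h ∨ Point.some x y' h' = -Point.some x y h := by
  rcases Y_eq_of_X_eq h'.1 h.1 rfl with e | e
  · left
    subst e
    rfl
  · right
    rw [Point.neg_some]
    subst e
    rfl

omit [Fact ℓ.Prime] in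
/-- an odd point `Z` of degree `0` all of whose multiples `n Z` (`n = 2, 3`) are images of `Z` under
`k`-embeddings `K → K` is `0`. -/
theorem eq_zero_of_deg_eq_zero {k : Type*} [Field k] (W : Affine k) [DecidableEq W.FunctionField]
    (hΔ : W.Δ ≠ 0) (Z : (W⁄W.FunctionField).Point) (hmem : Z ∈ oddPoints W)
    (hdeg : deg W hΔ ⟨Z, hmem⟩ = 0)
    (hsub : ∀ n : ℤ, n ≠ 0 → ∃ σ : W.FunctionField →ₐ[k] W.FunctionField,
      Point.map (W' := W) σ Z = n • Z) : Z = 0 := by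
  rcases Z with _ | ⟨x, y, h⟩
  · rfl
  · exfalso
    obtain ⟨c, hc⟩ := exists_const_of_deg_eq_zero hΔ hmem hdeg
    have haff : ∀ n : ℤ, n ≠ 0 →
        ∃ (y' : W.FunctionField) (h' : (W⁄W.FunctionField).Nonsingular x y'),
          n • Point.some x y h = Point.some x y' h' := by
      intro n hn
      obtain ⟨σ, hσ⟩ := hsub n hn
      have hσx : σ x = x := by rw [hc, AlgHom.commutes]
      rw [Point.map_some] at hσ
      refine ⟨σ y, hσx ▸ ((W.baseChange_nonsingular σ.injective ..).mpr h), ?_⟩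
      rw [← hσ]
      congr 1
    obtain ⟨y2, h2, e2⟩ := haff 2 (by norm_num)
    obtain ⟨y3, h3, e3⟩ := haff 3 (by norm_num)
    rcases eq_or_eq_neg_of_x_eq h h2 with e | e
    · -- `2 Z = Z`
      rw [← e2] at e
      have : Point.some x y h = 0 := by
        have h2' : (2 : ℤ) • Point.some x y h = Point.some x y h + Point.some x y h := two_zsmul _
        rw [h2'] at e
        exact add_eq_right.mp e
      exact Point.some_ne_zero h this
    · -- `2 Z = - Z`
      rw [← e2] at e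
      have : (3 : ℤ) • Point.some x y h = 0 := by
        have h3' : (3 : ℤ) • Point.some x y h = (2 : ℤ) • Point.some x y h + Point.some x y h := by
          rw [show (3 : ℤ) = 2 + 1 by norm_num, add_zsmul, one_zsmul]
        rw [h3', e, neg_add_cancel]
      rw [e3] at this
      exact Point.some_ne_zero h3 this

/-- **`Ψ P₀ = 0`.** -/
theorem Psi_genericPoint : Psi W (aℓ W) W.FunctionField (genericPoint W hΔ) = 0 := by
  have hmem : Psi W (aℓ W) W.FunctionField (genericPoint W hΔ) ∈ oddPoints W :=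
    coe_Zodd W hΔ ▸ (Zodd W hΔ).2
  have hZe : Zodd W hΔ = ⟨Psi W (aℓ W) W.FunctionField (genericPoint W hΔ), hmem⟩ :=
    Subtype.ext (coe_Zodd W hΔ)
  refine eq_zero_of_deg_eq_zero W hΔ _ hmem (hZe ▸ deg_Zodd W hΔ) ?_
  intro n hn
  obtain ⟨σ, hσ⟩ := exists_subst_zsmul W hΔ n hn
  exact ⟨σ, by rw [map_Psi, hσ, map_zsmul]⟩

end Generic

/-! ### `Ψ = 0` on `E(Ω)`, `Ω ⊇ K` -/

section Extend

variable [DecidableEq W.FunctionField] (hΔ : W.Δ ≠ 0)
variable {Ω : Type*} [Field Ω] [Algebra (ZMod ℓ) Ω] [DecidableEq Ω]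
  (j : W.FunctionField →ₐ[ZMod ℓ] Ω)

theorem jP₀_not_mem_algPoints : jP₀ W hΔ j ∉ algPoints W Ω := by
  rw [jP₀_eq, some_mem_algPoints_iff]
  exact transcendental_j_xK W j

include hΔ in
/-- a point with transcendental `x`-coordinate is the image of the generic point. -/
theorem Psi_eq_zero_of_not_mem {Q : (W⁄Ω).Point} (hQ : Q ∉ algPoints W Ω) :
    Psi W (aℓ W) Ω Q = 0 := by
  rcases Q with _ | ⟨u, v, h⟩
  · exact absurd (zero_mem _) hQ
  · rw [some_mem_algPoints_iff] at hQ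
    rw [← map_substHom_genericPoint W hΔ h hQ, ← map_Psi, Psi_genericPoint W hΔ, map_zero]

include hΔ j in
/-- **`Ψ = 0` on `E(Ω)`** for every field `Ω ⊇ K`. -/
theorem Psi_eq_zero_of_algHom (Q : (W⁄Ω).Point) : Psi W (aℓ W) Ω Q = 0 := by
  by_cases hQ : Q ∈ algPoints W Ω
  · have h1 : jP₀ W hΔ j + Q ∉ algPoints W Ω := fun h =>
      jP₀_not_mem_algPoints W hΔ j (by simpa using sub_mem h hQ)
    have h2 := Psi_eq_zero_of_not_mem W hΔ h1
    rw [map_add, Psi_eq_zero_of_not_mem W hΔ (jP₀_not_mem_algPoints W hΔ j), zero_add] at h2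
    exact h2
  · exact Psi_eq_zero_of_not_mem W hΔ hQ

end Extend

/-! ### `Ψ = 0` on `E(L)`, `L ⊇ 𝔽_ℓ` any field -/

section Main

open TensorProduct in
/-- two field extensions embed in a common one. -/
theorem exists_common_extension (F K L : Type*) [Field F] [Field K] [Field L] [Algebra F K]
    [Algebra F L] : ∃ (M : Ideal (K ⊗[F] L)), M.IsMaximal := by
  have : Nontrivial (K ⊗[F] L) :=
    Algebra.TensorProduct.nontrivial_of_algebraMap_injective_of_isDomain F K L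
      (algebraMap F K).injective (algebraMap F L).injective
  exact Ideal.exists_maximal _

variable (hΔ : W.Δ ≠ 0) (L : Type*) [Field L] [Algebra (ZMod ℓ) L] [DecidableEq L]

include hΔ in
open TensorProduct in
/-- **the Frobenius relation `φ² - a_ℓ φ + ℓ = 0` on `E(L)`**, for every field `L ⊇ 𝔽_ℓ`. -/
theorem Psi_eq_zero (Q : (W⁄L).Point) : Psi W (aℓ W) L Q = 0 := by
  classical
  obtain ⟨M, hM⟩ := exists_common_extension (ZMod ℓ) W.FunctionField L
  let _ : Field ((W.FunctionField ⊗[ZMod ℓ] L) ⧸ M) := Ideal.Quotient.field M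
  let jK : W.FunctionField →ₐ[ZMod ℓ] ((W.FunctionField ⊗[ZMod ℓ] L) ⧸ M) :=
    (Ideal.Quotient.mkₐ (ZMod ℓ) M).comp Algebra.TensorProduct.includeLeft
  let jL : L →ₐ[ZMod ℓ] ((W.FunctionField ⊗[ZMod ℓ] L) ⧸ M) :=
    (Ideal.Quotient.mkₐ (ZMod ℓ) M).comp Algebra.TensorProduct.includeRight
  apply Point.map_injective (W' := W) jL
  rw [map_Psi, Psi_eq_zero_of_algHom W hΔ jK, map_zero]

end Main

/-! ### the final statements -/

section Final

variable (W₀ : WeierstrassCurve (ZMod ℓ))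

theorem aℓ_eq_traceOfFrobenius : aℓ W₀.toAffine = W₀.traceOfFrobenius := by
  unfold aℓ WeierstrassCurve.traceOfFrobenius WeierstrassCurve.card
  rw [Nat.card_zmod]
  ring

/-- **the Eichler–Shimura relation in characteristic `ℓ`**: on `E(κ)`, for every field `κ ⊇ 𝔽_ℓ`, the
`ℓ`-power Frobenius `φ` satisfies `φ² - a_ℓ φ + ℓ = 0`, `a_ℓ = ℓ + 1 - #E(𝔽_ℓ)`. -/
theorem frob_rel_frobAlg (hΔ : W₀.Δ ≠ 0) (κ : Type*) [Field κ] [Algebra (ZMod ℓ) κ]
    [DecidableEq κ] (Q : (W₀.toAffine⁄κ).Point) :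
    Point.map (W' := W₀.toAffine) (frobAlg ℓ κ) (Point.map (W' := W₀.toAffine) (frobAlg ℓ κ) Q) -
      W₀.traceOfFrobenius • Point.map (W' := W₀.toAffine) (frobAlg ℓ κ) Q + (ℓ : ℤ) • Q = 0 := by
  have h := Psi_eq_zero W₀.toAffine hΔ κ Q
  rw [Psi_apply, aℓ_eq_traceOfFrobenius] at h
  exact h

/-- **the Eichler–Shimura relation in characteristic `ℓ`**, for any `ZMod ℓ`-algebra endomorphism `F`
of `κ` which is the `ℓ`-power map. -/
theorem frob_rel (hΔ : W₀.Δ ≠ 0) (κ : Type*) [Field κ] [Algebra (ZMod ℓ) κ]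
    [DecidableEq κ] (F : κ →ₐ[ZMod ℓ] κ) (hF : ∀ x, F x = x ^ ℓ) (Q : (W₀.toAffine⁄κ).Point) :
    Point.map (W' := W₀.toAffine) F (Point.map (W' := W₀.toAffine) F Q) -
      W₀.traceOfFrobenius • Point.map (W' := W₀.toAffine) F Q + (ℓ : ℤ) • Q = 0 := by
  have hFe : F = frobAlg ℓ κ := AlgHom.ext fun x => by rw [hF, frobAlg_apply]
  rw [hFe]
  exact frob_rel_frobAlg W₀ hΔ κ Q

end Final

end Fermat.Agent.ES.Q58.FrobRel8F
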