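/-
Programme Q (S58), second round (helper1): **heights of compositions of rational functions**
(pure polynomial algebra, builds on `PLPoly2`).

For `U V S T : k[X]` and `n = ht U V` put `hsub C n U S T = ∑ i ≤ n, uᵢ Sⁱ Tⁿ⁻ⁱ` (`= Tⁿ · U(S/T)`).
If `U, V` are coprime and `S, T` are coprime then `hsub C n U S T`, `hsub C n V S T` are coprime and
`ht (hsub C n U S T) (hsub C n V S T) = n * ht S T`:
the degree of the composite `(U/V) ∘ (S/T)` is the product of the degrees.
-/
import Mathlib
import Fermat.Agent.ES.Q58.PLPoly2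

set_option autoImplicit false

open Polynomial

namespace Fermat.Agent.ES.Q58.HtCompA

open Fermat.Agent.ES.Q58.PLPoly2

variable {k : Type*} [Field k]

/-- the homogenised substitution `∑ i ≤ n, φ(uᵢ) sⁱ tⁿ⁻ⁱ`. -/
noncomputable def hsub {R : Type*} [CommRing R] (φ : k →+* R) (n : ℕ) (U : k[X]) (s t : R) : R :=
  ∑ i ∈ Finset.range (n + 1), φ (U.coeff i) * s ^ i * t ^ (n - i)

section Basic

variable {R R' : Type*} [CommRing R] [CommRing R'] (φ : k →+* R)

theorem map_hsub (ψ : R →+* R') (n : ℕ) (U : k[X]) (s t : R) :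
    ψ (hsub φ n U s t) = hsub (ψ.comp φ) n U (ψ s) (ψ t) := by
  simp only [hsub, map_sum, map_mul, map_pow, RingHom.comp_apply]

theorem hsub_zero_right (n : ℕ) (U : k[X]) (s : R) :
    hsub φ n U s 0 = φ (U.coeff n) * s ^ n := by
  unfold hsub
  rw [Finset.sum_eq_single n]
  · simp
  · intro i hi hin
    have : i < n := lt_of_le_of_ne (Nat.lt_succ_iff.mp (Finset.mem_range.mp hi)) hin
    have h0 : n - i ≠ 0 := by omega
    rw [zero_pow h0, mul_zero]
  · intro h
    exact absurd (Finset.mem_range.mpr (Nat.lt_succ_self n)) h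

end Basic

section Field

variable {F : Type*} [Field F] (φ : k →+* F)

theorem hsub_eq_eval {n : ℕ} {U : k[X]} (hU : U.natDegree ≤ n) (s : F) {t : F} (ht : t ≠ 0) :
    hsub φ n U s t = t ^ n * (U.map φ).eval (s / t) := by
  have hdeg : (U.map φ).natDegree < n + 1 :=
    lt_of_le_of_lt natDegree_map_le (Nat.lt_succ_of_le hU)
  rw [eval_eq_sum_range' hdeg, Finset.mul_sum]
  unfold hsub
  refine Finset.sum_congr rfl fun i hi => ?_
  have hin : i ≤ n := Nat.lt_succ_iff.mp (Finset.mem_range.mp hi)
  rw [coeff_map, div_pow]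
  have e : t ^ n = t ^ i * t ^ (n - i) := by rw [← pow_add, Nat.add_sub_cancel' hin]
  rw [e]
  field_simp

/-- **pointwise lemma**: the homogenisations of a coprime pair have no common zero on `ℙ¹(F)`. -/
theorem hsub_no_common_zero {U V : k[X]} (hUV : IsCoprime U V) {s t : F} (hst : s ≠ 0 ∨ t ≠ 0)
    (h1 : hsub φ (ht U V) U s t = 0) (h2 : hsub φ (ht U V) V s t = 0) : False := by
  by_cases ht0 : t = 0
  · subst ht0
    have hs : s ≠ 0 := by simpa using hst
    rw [hsub_zero_right] at h1 h2
    have hsn : s ^ ht U V ≠ 0 := pow_ne_zero _ hs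
    have e1 : φ (U.coeff (ht U V)) = 0 := (mul_eq_zero.mp h1).resolve_right hsn
    have e2 : φ (V.coeff (ht U V)) = 0 := (mul_eq_zero.mp h2).resolve_right hsn
    rcases top_ne_zero (ne_zero_of_isCoprime hUV) with h | h
    · exact h ((map_eq_zero φ).mp e1)
    · exact h ((map_eq_zero φ).mp e2)
  · rw [hsub_eq_eval φ (natDegree_le_ht_left U V) s ht0] at h1
    rw [hsub_eq_eval φ (natDegree_le_ht_right U V) s ht0] at h2
    have htn : t ^ ht U V ≠ 0 := pow_ne_zero _ ht0
    have e1 := (mul_eq_zero.mp h1).resolve_left htn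
    have e2 := (mul_eq_zero.mp h2).resolve_left htn
    obtain ⟨a, b, hab⟩ := hUV
    have := congrArg (fun p : k[X] => (p.map φ).eval (s / t)) hab
    simp only [Polynomial.map_add, Polynomial.map_mul, eval_add, eval_mul, e1, e2, mul_zero,
      add_zero, Polynomial.map_one, eval_one] at this
    exact zero_ne_one this

end Field

/-! ### The top coefficient of a homogenised substitution -/

theorem TopCoeff.zero (n : ℕ) : TopCoeff (0 : k[X]) n 0 := ⟨by simp, by simp⟩

theorem TopCoeff.finset_sum {ι : Type*} (s : Finset ι) (P : ι → k[X]) (c : ι → k) (n : ℕ)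
    (h : ∀ i ∈ s, TopCoeff (P i) n (c i)) : TopCoeff (∑ i ∈ s, P i) n (∑ i ∈ s, c i) := by
  classical
  induction s using Finset.induction_on with
  | empty => simpa using TopCoeff.zero (k := k) n
  | insert a s ha ih =>
    rw [Finset.sum_insert ha, Finset.sum_insert ha]
    exact (h a (Finset.mem_insert_self a s)).add
      (ih fun i hi => h i (Finset.mem_insert_of_mem hi))

theorem topCoeff_hsub (n : ℕ) (U : k[X]) {S T : k[X]} {m : ℕ} {s t : k} (hS : TopCoeff S m s)
    (hT : TopCoeff T m t) :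
    TopCoeff (hsub C n U S T) (n * m) (hsub (RingHom.id k) n U s t) := by
  unfold hsub
  refine TopCoeff.finset_sum _ _ _ _ fun i hi => ?_
  have hin : i ≤ n := Nat.lt_succ_iff.mp (Finset.mem_range.mp hi)
  have h1 := ((TopCoeff.const (U.coeff i)).mul (hS.pow i)).mul (hT.pow (n - i))
  refine h1.cast ?_ rfl
  have : n = i + (n - i) := (Nat.add_sub_cancel' hin).symm
  calc 0 + i * m + (n - i) * m = (i + (n - i)) * m := by ring
    _ = n * m := by rw [← this]

/-! ### Coprimality and height of the composite -/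

variable {U V S T : k[X]}

theorem isCoprime_hsub (hUV : IsCoprime U V) (hST : IsCoprime S T) :
    IsCoprime (hsub C (ht U V) U S T) (hsub C (ht U V) V S T) := by
  have key : ∀ π : k[X], Prime π → π ∣ hsub C (ht U V) U S T → ¬ π ∣ hsub C (ht U V) V S T := by
    intro π hπ hA hB
    have : Fact (Irreducible π) := ⟨hπ.irreducible⟩
    let φ : k[X] →+* AdjoinRoot π := AdjoinRoot.mk π
    have hφ : ∀ P : k[X], φ P = 0 ↔ π ∣ P := fun P => AdjoinRoot.mk_eq_zero
    have e1 := (hφ _).mpr hA
    have e2 := (hφ _).mpr hB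
    rw [map_hsub] at e1 e2
    have hst : φ S ≠ 0 ∨ φ T ≠ 0 := by
      by_contra hcon
      push Not at hcon
      exact not_dvd_both hST hπ ((hφ _).mp hcon.1) ((hφ _).mp hcon.2)
    exact hsub_no_common_zero (φ.comp C) hUV hst e1 e2
  refine isCoprime_of_prime_dvd ?_ key
  rintro ⟨h1, h2⟩
  have hX : Prime (X : k[X]) := prime_X
  exact key X hX (by rw [h1]; exact dvd_zero _) (by rw [h2]; exact dvd_zero _)

theorem ht_hsub (hUV : IsCoprime U V) (hST : IsCoprime S T) :
    ht (hsub C (ht U V) U S T) (hsub C (ht U V) V S T) = ht U V * ht S T := by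
  have hS := topCoeff_self S _ (natDegree_le_ht_left S T)
  have hT := topCoeff_self T _ (natDegree_le_ht_right S T)
  have t1 := topCoeff_hsub (ht U V) U hS hT
  have t2 := topCoeff_hsub (ht U V) V hS hT
  have hst := top_ne_zero (ne_zero_of_isCoprime hST)
  have hne : hsub (RingHom.id k) (ht U V) U (S.coeff (ht S T)) (T.coeff (ht S T)) ≠ 0 ∨
      hsub (RingHom.id k) (ht U V) V (S.coeff (ht S T)) (T.coeff (ht S T)) ≠ 0 := by
    by_contra hcon
    push Not at hcon
    exact hsub_no_common_zero (RingHom.id k) hUV hst hcon.1 hcon.2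
  unfold ht at t1 t2 ⊢
  rcases hne with h | h
  · have e1 := t1.natDegree_eq h
    have e2 := t2.1
    rw [e1]
    exact max_eq_left e2
  · have e2 := t2.natDegree_eq h
    have e1 := t1.1
    rw [e2]
    exact max_eq_right e1

/-- the composite as a quotient, in a field receiving `k[X]`. -/
theorem hsub_div {F : Type*} [Field F] (c : k[X] →+* F) {n : ℕ} {U : k[X]} (hU : U.natDegree ≤ n)
    (S : k[X]) {T : k[X]} (hT : c T ≠ 0) :
    c (hsub C n U S T) = c T ^ n * (U.map (c.comp C)).eval (c S / c T) := by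
  rw [map_hsub, hsub_eq_eval _ hU _ hT]

end Fermat.Agent.ES.Q58.HtCompA
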