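/-
Programme Q (S58), second round (helper1): reduction and lifting of torsion points of an integral
Weierstrass model at a valuation subring `A` of a field `L`, with residue field `κ`.

`W : WeierstrassCurve ℤ`, `WA = W_A`, `VL = W_L`, `Vκ = W_κ`.

* `exists_root_near`      : Hensel for algebraically closed fields (roots of a polynomial with unit
                            leading coefficient reduce ONTO the roots of the reduction);
* `equation_res`, `nonsingular_of_res` : reduction of the equation; a point with nonsingular reduction
                            is nonsingular;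
* `torsion_res`           : the reduction of a point of odd order `m` is killed by `m`;
* `two_torsion_unit`      : a nonsingular point of odd order is not a `2`-torsion point;
* `exists_lift_torsion`   : (`L` algebraically closed, `v m = 1`, `m` odd) a nonsingular point of the
                            special fibre killed by `m` lifts to a point of `W(L)` killed by `m`.
-/
import Mathlib
import Fermat.Agent.DivPoly.A1Final

set_option autoImplicit false

open WeierstrassCurve WeierstrassCurve.Affine Polynomial

namespace Fermat.Agent.ES.Q58.RedTorsA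

/-! ### Roots near approximate roots -/

section Root

variable {L : Type*} [Field L] [IsAlgClosed L] (A : ValuationSubring L)

/-- Over an algebraically closed field: if the leading coefficient of `p` is a unit and `p(a)` is in
the maximal ideal then some root of `p` is congruent to `a`. -/
theorem exists_root_near (p : L[X]) (hlc : A.valuation p.leadingCoeff = 1) {a : L}
    (ha : A.valuation (p.eval a) < 1) : ∃ z, p.eval z = 0 ∧ A.valuation (a - z) < 1 := by
  by_contra hcon
  push Not at hcon
  have hp0 : p ≠ 0 := by
    rintro rfl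
    simp at hlc
  have h1 := (IsAlgClosed.splits p).eval_eq_prod_roots a
  have h2 : 1 ≤ A.valuation ((p.roots.map (a - ·)).prod) := by
    rw [map_multiset_prod, Multiset.map_map]
    apply Multiset.one_le_prod_of_one_le
    intro g hg
    obtain ⟨z, hz, rfl⟩ := Multiset.mem_map.mp hg
    exact hcon z ((mem_roots hp0).mp hz)
  rw [h1, map_mul, hlc, one_mul] at ha
  exact absurd ha (not_lt.mpr h2)

end Root

/-! ### The three curves -/

section Curves

variable {L : Type*} [Field L] (A : ValuationSubring L) (W : WeierstrassCurve ℤ)

/-- the model over the valuation ring. -/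
noncomputable abbrev WA : Affine A := (W.map (Int.castRingHom A)).toAffine

/-- the generic fibre. -/
noncomputable abbrev VL : Affine L := (W.map (Int.castRingHom L)).toAffine

/-- the special fibre. -/
noncomputable abbrev Vκ : Affine (IsLocalRing.ResidueField A) :=
  (W.map (Int.castRingHom (IsLocalRing.ResidueField A))).toAffine

theorem map_subtype : (WA A W).map A.subtype = VL (L := L) W := by
  change (W.map (Int.castRingHom A)).map A.subtype = W.map (Int.castRingHom L)
  rw [WeierstrassCurve.map_map]
  congr 1

theorem map_residue : (WA A W).map (IsLocalRing.residue A) = Vκ A W := by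
  change (W.map (Int.castRingHom A)).map (IsLocalRing.residue A) =
    W.map (Int.castRingHom (IsLocalRing.ResidueField A))
  rw [WeierstrassCurve.map_map]
  congr 1

theorem residue_eq_zero_iff (x : A) :
    IsLocalRing.residue A x = 0 ↔ A.valuation (x : L) < 1 := by
  rw [IsLocalRing.residue_eq_zero_iff, A.valuation_lt_one_iff]

theorem residue_ne_zero_iff (x : A) :
    IsLocalRing.residue A x ≠ 0 ↔ A.valuation (x : L) = 1 := by
  rw [Ne, residue_eq_zero_iff, not_lt]
  constructor
  · intro h
    exact le_antisymm (A.valuation_le_one x) h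
  · intro h
    rw [h]

/-- the equation descends from `L` to `A`. -/
theorem equation_A {x y : A} (h : (VL W).Equation (x : L) (y : L)) : (WA A W).Equation x y := by
  rw [← map_subtype A W] at h
  exact (Affine.map_equation (WA A W) (f := A.subtype) Subtype.val_injective x y).mp h

/-- the equation reduces. -/
theorem equation_res {x y : A} (h : (VL W).Equation (x : L) (y : L)) :
    (Vκ A W).Equation (IsLocalRing.residue A x) (IsLocalRing.residue A y) := by
  rw [← map_residue A W]
  exact (equation_A A W h).map _

/-- nonsingularity over `A` goes up to `L`. -/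
theorem nonsingular_L {x y : A} (h : (WA A W).Nonsingular x y) :
    (VL W).Nonsingular (x : L) (y : L) := by
  rw [← map_subtype A W]
  exact (Affine.map_nonsingular (WA A W) (f := A.subtype) Subtype.val_injective x y).mpr h

/-- a point over `A` whose reduction is nonsingular is nonsingular. -/
theorem nonsingular_of_res {x y : A} (h : (WA A W).Equation x y)
    (hns : (Vκ A W).Nonsingular (IsLocalRing.residue A x) (IsLocalRing.residue A y)) :
    (WA A W).Nonsingular x y := by
  rw [← map_residue A W] at hns
  rw [Affine.nonsingular_iff'] at hns ⊢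
  refine ⟨h, ?_⟩
  rcases hns.2 with h1 | h1
  · left
    intro h0
    apply h1
    simp only [WeierstrassCurve.map_a₁, WeierstrassCurve.map_a₂, WeierstrassCurve.map_a₄]
    have := congrArg (IsLocalRing.residue A) h0
    simpa [map_ofNat] using this
  · right
    intro h0
    apply h1
    simp only [WeierstrassCurve.map_a₁, WeierstrassCurve.map_a₃]
    have := congrArg (IsLocalRing.residue A) h0
    simpa [map_ofNat] using this

/-- the division polynomial of the generic fibre at a point over `A`. -/
theorem eval_preΨ'_L (m : ℕ) (x : A) :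
    ((VL (L := L) W).preΨ' m).eval (x : L) = (((WA A W).preΨ' m).eval x : A) := by
  rw [← map_subtype A W, WeierstrassCurve.map_preΨ', eval_map]
  exact Polynomial.eval₂_at_apply A.subtype x

/-- the division polynomial of the special fibre at a reduced point. -/
theorem eval_preΨ'_κ (m : ℕ) (x : A) :
    ((Vκ A W).preΨ' m).eval (IsLocalRing.residue A x) =
      IsLocalRing.residue A (((WA A W).preΨ' m).eval x) := by
  rw [← map_residue A W, WeierstrassCurve.map_preΨ', eval_map]
  exact Polynomial.eval₂_at_apply (IsLocalRing.residue A) x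

end Curves

/-! ### Torsion points -/

section TwoTorsion

variable {F : Type*} [Field F] [DecidableEq F] {V : Affine F}

/-- a nonsingular point of odd order is not a `2`-torsion point. -/
theorem two_torsion_unit {m : ℕ} (hm : Odd m) {x y : F} (h : V.Nonsingular x y)
    (hP : m • Point.some x y h = 0) : 2 * y + V.a₁ * x + V.a₃ ≠ 0 := by
  intro h0
  have hneg : y = V.negY x y := by
    simp only [Affine.negY]
    linear_combination h0
  have h2 : (2 : ℕ) • (Point.some x y h : V.Point) = 0 := by
    rw [two_nsmul]
    exact Point.add_of_Y_eq rfl hneg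
  obtain ⟨k, hk⟩ := hm
  have e1 : m • (Point.some x y h : V.Point)
      = k • ((2 : ℕ) • (Point.some x y h : V.Point)) + Point.some x y h := by
    rw [hk, add_smul, mul_comm, mul_smul, one_smul]
  rw [hP, h2, nsmul_zero, zero_add] at e1
  exact Point.some_ne_zero h e1.symm

end TwoTorsion

section Torsion

variable {L : Type*} [Field L] [DecidableEq L] (A : ValuationSubring L) (W : WeierstrassCurve ℤ)
  [DecidableEq (IsLocalRing.ResidueField A)]

open Fermat.Agent.DivPoly

/-- the reduction of a point of odd order `m` is killed by `m`. -/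
theorem torsion_res {m : ℕ} (hm : Odd m) {x y : A} (h : (VL W).Nonsingular (x : L) (y : L))
    (hP : m • Point.some _ _ h = 0)
    (h' : (Vκ A W).Nonsingular (IsLocalRing.residue A x) (IsLocalRing.residue A y)) :
    m • Point.some _ _ h' = 0 := by
  rw [A1Final.nsmul_eq_zero_iff_preΨ' _ hm] at hP ⊢
  rw [eval_preΨ'_κ]
  rw [eval_preΨ'_L A] at hP
  have h0 : ((WA A W).preΨ' m).eval x = 0 := Subtype.ext hP
  rw [h0, map_zero]

variable [IsAlgClosed L]

/-- **Lifting torsion from the special fibre.** -/
theorem exists_lift_torsion {m : ℕ} (hm : Odd m) (hvm : A.valuation ((m : ℕ) : L) = 1)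
    {ξ η : IsLocalRing.ResidueField A} (hns : (Vκ A W).Nonsingular ξ η)
    (hP : m • Point.some ξ η hns = 0) :
    ∃ (x y : A), IsLocalRing.residue A x = ξ ∧ IsLocalRing.residue A y = η ∧
      ∃ h : (VL W).Nonsingular (x : L) (y : L), m • Point.some _ _ h = 0 := by
  obtain ⟨a₀, ha₀⟩ := IsLocalRing.residue_surjective (R := A) ξ
  obtain ⟨b₀, hb₀⟩ := IsLocalRing.residue_surjective (R := A) η
  have hmL : ((m : ℕ) : L) ≠ 0 := by
    intro h0
    rw [h0, map_zero] at hvm
    exact zero_ne_one hvm
  -- the `x`-coordinate
  have hψ : ((Vκ A W).preΨ' m).eval ξ = 0 := (A1Final.nsmul_eq_zero_iff_preΨ' hns hm).mp hP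
  have hlc : A.valuation ((VL (L := L) W).preΨ' m).leadingCoeff = 1 := by
    rw [WeierstrassCurve.leadingCoeff_preΨ' _ hmL, if_neg (Nat.not_even_iff_odd.mpr hm)]
    exact hvm
  have hnear : A.valuation (((VL (L := L) W).preΨ' m).eval (a₀ : L)) < 1 := by
    rw [eval_preΨ'_L A, ← residue_eq_zero_iff, ← eval_preΨ'_κ, ha₀]
    exact hψ
  obtain ⟨z, hz0, hz⟩ := exists_root_near A _ hlc hnear
  have hzA : z ∈ A := by
    have e : z = (a₀ : L) - ((a₀ : L) - z) := by ring
    rw [e]
    exact A.sub_mem a₀.2 ((A.valuation_le_one_iff _).mp hz.le)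
  set x : A := ⟨z, hzA⟩ with hx
  have hxres : IsLocalRing.residue A x = ξ := by
    have e : x = a₀ - (a₀ - x) := by ring
    have h1 : IsLocalRing.residue A (a₀ - x) = 0 := by
      rw [residue_eq_zero_iff]
      exact hz
    rw [e, map_sub, h1, sub_zero, ha₀]
  -- the `y`-coordinate
  set bq : L := (W.a₁ : L) * z + (W.a₃ : L) with hbq
  set cq : L := -(z ^ 3 + (W.a₂ : L) * z ^ 2 + (W.a₄ : L) * z + (W.a₆ : L)) with hcq
  set q : L[X] := C 1 * X ^ 2 + C bq * X + C cq with hq
  have hqlc : A.valuation q.leadingCoeff = 1 := by
    rw [hq, Polynomial.leadingCoeff_quadratic one_ne_zero, map_one]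
  have heqκ := (Affine.equation_iff _ _).mp hns.1
  simp only [WeierstrassCurve.map_a₁, WeierstrassCurve.map_a₂, WeierstrassCurve.map_a₃,
    WeierstrassCurve.map_a₄, WeierstrassCurve.map_a₆, eq_intCast] at heqκ
  have hqnear : A.valuation (q.eval (b₀ : L)) < 1 := by
    have e : q.eval (b₀ : L) = ((b₀ ^ 2 + (W.a₁ : A) * x * b₀ + (W.a₃ : A) * b₀
        - (x ^ 3 + (W.a₂ : A) * x ^ 2 + (W.a₄ : A) * x + (W.a₆ : A)) : A) : L) := by
      simp only [hq, hbq, hcq, eval_add, eval_mul, eval_C, eval_pow, eval_X, hx]
      push_cast
      ring
    rw [e, ← residue_eq_zero_iff]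
    simp only [map_sub, map_add, map_mul, map_pow, map_intCast, hxres, hb₀]
    linear_combination heqκ
  obtain ⟨w, hw0, hw⟩ := exists_root_near A q hqlc hqnear
  have hwA : w ∈ A := by
    have e : w = (b₀ : L) - ((b₀ : L) - w) := by ring
    rw [e]
    exact A.sub_mem b₀.2 ((A.valuation_le_one_iff _).mp hw.le)
  set y : A := ⟨w, hwA⟩ with hy
  have hyres : IsLocalRing.residue A y = η := by
    have e : y = b₀ - (b₀ - y) := by ring
    have h1 : IsLocalRing.residue A (b₀ - y) = 0 := by
      rw [residue_eq_zero_iff]
      exact hw
    rw [e, map_sub, h1, sub_zero, hb₀]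
  have heqL : (VL W).Equation (x : L) (y : L) := by
    rw [Affine.equation_iff]
    simp only [WeierstrassCurve.map_a₁, WeierstrassCurve.map_a₂, WeierstrassCurve.map_a₃,
      WeierstrassCurve.map_a₄, WeierstrassCurve.map_a₆, eq_intCast]
    simp only [hq, hbq, hcq, eval_add, eval_mul, eval_C, eval_pow, eval_X] at hw0
    change w ^ 2 + (W.a₁ : L) * z * w + (W.a₃ : L) * w
      = z ^ 3 + (W.a₂ : L) * z ^ 2 + (W.a₄ : L) * z + (W.a₆ : L)
    linear_combination hw0
  have hnsA : (WA A W).Nonsingular x y := by
    refine nonsingular_of_res A W (equation_A A W heqL) ?_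
    rw [hxres, hyres]
    exact hns
  refine ⟨x, y, hxres, hyres, nonsingular_L A W hnsA, ?_⟩
  rw [A1Final.nsmul_eq_zero_iff_preΨ' _ hm]
  exact hz0

end Torsion

end Fermat.Agent.ES.Q58.RedTorsA
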