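/-
Programme Q (S58), second round (helper1): **(E-ii)**, the field `ECFacts.inertia` of `ECIface12`.

`W` an integral Weierstrass model, `q` a prime which is good or multiplicative for `W`, `λ ≠ q` an
odd prime.  For every place `A` of `ℚ̄` over `q` and every `τ` in the inertia group of `A`:

* good `q`: `τ` fixes every point of `W[λⁿ](ℚ̄)` (`inertia_fix` + nonsingularity of the reduction);
* multiplicative `q`: the `≥ λⁿ` points of the nodal special fibre killed by `λⁿ` (`NodeCount15`)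
  lift to `W[λⁿ](ℚ̄)` (`RedTorsA.exists_lift_torsion`), and the lifts are fixed by `τ`.

In both cases `WeakLink25.weakLink` gives `λⁿ ∣ ℓ + 1 - a_ℓ(W)` for every Frobenius `φ` at a good
`ℓ ≠ λ` which acts on `ℚ(W[λⁿ])` like a power of `τ`.
-/
import Mathlib
import Fermat.Agent.ES.Q58.RedTorsA
import Fermat.Agent.ES.Q58.WeakLink25
import Fermat.Agent.ES.Q58.NodeCount15
import Fermat.Agent.ES.Q58.CoordField13
import Fermat.Agent.ES.Q58.ECIface12
import Fermat.Agent.ES.KRON.KronInst10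

set_option autoImplicit false

open WeierstrassCurve WeierstrassCurve.Affine Polynomial

namespace Fermat.Agent.ES.Q58.InertiaFixA

open Fermat.Agent.ES.Q58.RedTorsA Fermat.Agent.S05.Inertia Fermat.Agent.S05.Kernel
  Fermat.Agent.ES.EC.CongE1_20 Fermat.Agent.ES.Q58.ECIface12

/-! ### Generalities -/

section General

variable {L : Type*} [Field L] [DecidableEq L] (A : ValuationSubring L) (W : WeierstrassCurve ℤ)

theorem integralCoeffs : IntegralCoeffs A.valuation (VL (L := L) W) := by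
  refine ⟨?_, ?_, ?_, ?_, ?_⟩
  · rw [WeierstrassCurve.map_a₁, eq_intCast]; exact valuation_intCast_le_one _
  · rw [WeierstrassCurve.map_a₂, eq_intCast]; exact valuation_intCast_le_one _
  · rw [WeierstrassCurve.map_a₃, eq_intCast]; exact valuation_intCast_le_one _
  · rw [WeierstrassCurve.map_a₄, eq_intCast]; exact valuation_intCast_le_one _
  · rw [WeierstrassCurve.map_a₆, eq_intCast]; exact valuation_intCast_le_one _

/-- the coordinates of a torsion point of order prime to the residue characteristic are integral. -/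
theorem coords_integral {V : Affine L} (hV : V = VL W) {m : ℕ}
    (hvm : A.valuation ((m : ℕ) : L) = 1) {x y : L} (h : V.Nonsingular x y)
    (hP : m • Point.some x y h = 0) : A.valuation x ≤ 1 ∧ A.valuation y ≤ 1 := by
  subst hV
  have hint := integralCoeffs A W
  have hvx : A.valuation x ≤ 1 := x_integral_of_nsmul_eq_zero hint h hvm hP
  refine ⟨hvx, ?_⟩
  by_contra hy
  exact absurd (vx_of_vy hint h.1 (not_le.mp hy)) (not_lt.mpr hvx)

/-- transfer of torsion statements along an equality of curves. -/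
theorem nsmul_transfer {F : Type*} [Field F] [DecidableEq F] {V V' : Affine F} (hV : V = V')
    {m : ℕ} {x y : F} (h : V.Nonsingular x y) (h' : V'.Nonsingular x y) :
    m • (Point.some x y h : V.Point) = 0 ↔ m • (Point.some x y h' : V'.Point) = 0 := by
  subst hV
  rfl

theorem residue_intCast_eq_zero_iff {q : ℕ} (hq : q.Prime) (hA : A.LiesOverPrime q) (n : ℤ) :
    ((n : ℤ) : IsLocalRing.ResidueField A) = 0 ↔ (q : ℤ) ∣ n := by
  have e : ((n : ℤ) : IsLocalRing.ResidueField A) = IsLocalRing.residue A ((n : ℤ) : A) :=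
    (map_intCast _ _).symm
  rw [e, residue_eq_zero_iff]
  push_cast
  exact valuation_intCast_lt_one_iff hq hA n

/-- at a good prime the special fibre is nonsingular. -/
theorem Δ_special_ne_zero {q : ℕ} (hq : q.Prime) (hA : A.LiesOverPrime q)
    (hgood : ¬ (q : ℤ) ∣ W.Δ) : (Vκ A W).Δ ≠ 0 := by
  change (W.map (Int.castRingHom (IsLocalRing.ResidueField A))).Δ ≠ 0
  rw [WeierstrassCurve.map_Δ, eq_intCast]
  exact fun h => hgood ((residue_intCast_eq_zero_iff A hq hA _).mp h)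

end General

/-! ### Over `ℚ̄` -/

section Qbar

local notation "Qb" => AlgebraicClosure ℚ
local notation "GQ" => (AlgebraicClosure ℚ ≃ₐ[ℚ] AlgebraicClosure ℚ)

/-- the curve over `ℚ̄`, as the base change of the curve over `ℚ`. -/
noncomputable abbrev EQ (W : WeierstrassCurve ℤ) : Affine Qb := ((W.map (Int.castRingHom ℚ))⁄Qb)

theorem EQ_eq (W : WeierstrassCurve ℤ) : EQ W = VL (L := Qb) W :=
  Fermat.Agent.ES.EC.TorsionLift20.baseChange_eq_map W

variable (W : WeierstrassCurve ℤ) {q : ℕ} (hq : q.Prime) {A : ValuationSubring Qb}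
  (hA : A.LiesOverPrime q)

include hq hA in
/-- **Inertia fixes the torsion points with nonsingular reduction.** -/
theorem inertia_fix {τ : GQ} (hτ : τ ∈ A.inertiaSubgroupIn ℚ) {m : ℕ} (hm : Odd m)
    (hqm : ¬ q ∣ m) {x y : A} (h : (EQ W).Nonsingular (x : Qb) (y : Qb))
    (hP : m • (Point.some _ _ h : (EQ W).Point) = 0)
    (hns : (Vκ A W).Nonsingular (IsLocalRing.residue A x) (IsLocalRing.residue A y)) :
    Point.map (W' := W.map (Int.castRingHom ℚ)) τ.toAlgHom (Point.some _ _ h) =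
      Point.some _ _ h := by
  classical
  have hV := EQ_eq W
  have hint : IntegralCoeffs A.valuation (EQ W) := by rw [hV]; exact integralCoeffs A W
  have hvm : A.valuation ((m : ℕ) : Qb) = 1 := valuation_natCast_eq_one hq hA hqm
  have h' : (VL W).Nonsingular (x : Qb) (y : Qb) := hV ▸ h
  have hP' : m • (Point.some _ _ h' : (VL (L := Qb) W).Point) = 0 :=
    (nsmul_transfer hV h h').mp hP
  have hred := torsion_res A W hm h' hP' hns
  have hu0 := two_torsion_unit hm hns hred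
  have hu : A.valuation (2 * (y : Qb) + (EQ W).a₁ * x + (EQ W).a₃) = 1 := by
    rw [hV]
    simp only [WeierstrassCurve.map_a₁, WeierstrassCurve.map_a₃, eq_intCast]
    have e : (2 * (y : Qb) + ((W.a₁ : ℤ) : Qb) * x + ((W.a₃ : ℤ) : Qb))
        = ((y + y + ((W.a₁ : ℤ) : A) * x + ((W.a₃ : ℤ) : A) : A) : Qb) := by
      push_cast; ring
    rw [e, ← residue_ne_zero_iff]
    simp only [WeierstrassCurve.map_a₁, WeierstrassCurve.map_a₃, eq_intCast] at hu0
    rw [two_mul] at hu0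
    simpa using hu0
  have hmap : Point.map (W' := W.map (Int.castRingHom ℚ)) τ.toAlgHom (Point.some _ _ h)
      = Point.some (τ.toAlgHom (x : Qb)) (τ.toAlgHom (y : Qb))
        ((WeierstrassCurve.Affine.baseChange_nonsingular (W.map (Int.castRingHom ℚ))
          (f := τ.toAlgHom) τ.toAlgHom.injective _ _).mpr h) := rfl
  rw [hmap]
  have hPτ : m • (Point.some (τ.toAlgHom (x : Qb)) (τ.toAlgHom (y : Qb))
        ((WeierstrassCurve.Affine.baseChange_nonsingular (W.map (Int.castRingHom ℚ))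
          (f := τ.toAlgHom) τ.toAlgHom.injective _ _).mpr h) : (EQ W).Point) = 0 := by
    rw [← hmap, ← map_nsmul, hP, map_zero]
  have hx : A.valuation (τ.toAlgHom (x : Qb) - x) < 1 :=
    valuation_sub_lt_one hτ ((A.valuation_le_one_iff _).mpr x.2)
  have hy : A.valuation (τ.toAlgHom (y : Qb) - y) < 1 :=
    valuation_sub_lt_one hτ ((A.valuation_le_one_iff _).mpr y.2)
  exact eq_of_congruent_of_nsmul_eq_zero hint _ h hx hy hu hvm hPτ hP

include hq hA in
/-- **Good reduction: inertia acts trivially on the torsion of order prime to `q`.** -/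
theorem inertia_fix_good (hgood : ¬ (q : ℤ) ∣ W.Δ) {τ : GQ} (hτ : τ ∈ A.inertiaSubgroupIn ℚ)
    {m : ℕ} (hm : Odd m) (hqm : ¬ q ∣ m) (P : (EQ W).Point) (hP : m • P = 0) :
    Point.map (W' := W.map (Int.castRingHom ℚ)) τ.toAlgHom P = P := by
  classical
  rcases P with _ | ⟨x, y, h⟩
  · rfl
  have hvm : A.valuation ((m : ℕ) : Qb) = 1 := valuation_natCast_eq_one hq hA hqm
  obtain ⟨hvx, hvy⟩ := coords_integral A W (EQ_eq W) hvm h hP
  have hxA : x ∈ A := (A.valuation_le_one_iff _).mp hvx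
  have hyA : y ∈ A := (A.valuation_le_one_iff _).mp hvy
  have h' : (VL W).Nonsingular (x : Qb) (y : Qb) := EQ_eq W ▸ h
  have heq := equation_res A W (x := ⟨x, hxA⟩) (y := ⟨y, hyA⟩) h'.1
  have hns := ((Vκ A W).equation_iff_nonsingular_of_Δ_ne_zero
    (Δ_special_ne_zero A W hq hA hgood)).mp heq
  exact inertia_fix W hq hA hτ hm hqm (x := ⟨x, hxA⟩) (y := ⟨y, hyA⟩) h hP hns

/-- the relation between a point of the special fibre and a lift. -/
def IsLiftOf (R : (Vκ A W).Point) (P : (EQ W).Point) : Prop :=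
  (R = 0 ∧ P = 0) ∨ ∃ (x y : A) (h : (EQ W).Nonsingular (x : Qb) (y : Qb))
    (hns : (Vκ A W).Nonsingular (IsLocalRing.residue A x) (IsLocalRing.residue A y)),
    P = Point.some _ _ h ∧ R = Point.some _ _ hns

omit hq hA in
theorem IsLiftOf.unique {R R' : (Vκ A W).Point} {P : (EQ W).Point} (h : IsLiftOf W R P)
    (h' : IsLiftOf W R' P) : R = R' := by
  rcases h with ⟨hR, hP⟩ | ⟨x, y, hxy, hns, hP, hR⟩
  · rcases h' with ⟨hR', -⟩ | ⟨x', y', hxy', hns', hP', -⟩
    · rw [hR, hR']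
    · rw [hP] at hP'
      exact absurd hP'.symm (Point.some_ne_zero _)
  · rcases h' with ⟨-, hP'⟩ | ⟨x', y', hxy', hns', hP', hR'⟩
    · rw [hP] at hP'
      exact absurd hP' (Point.some_ne_zero _)
    · rw [hP, Point.some.injEq] at hP'
      obtain ⟨hx, hy⟩ := hP'
      have hx' : x = x' := Subtype.ext hx
      have hy' : y = y' := Subtype.ext hy
      subst hx' hy'
      rw [hR, hR']

include hq hA in
/-- **Multiplicative reduction: at least `λⁿ` points of `W[λⁿ](ℚ̄)` are fixed by inertia.** -/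
theorem exists_fixed_finset_mult (hΔ : (q : ℤ) ∣ W.Δ) (hc₄ : ¬ (q : ℤ) ∣ W.c₄) {lam : ℕ}
    (hlam : lam.Prime) (hlam2 : lam ≠ 2) (hlq : lam ≠ q) (n : ℕ) :
    ∃ S : Finset (EQ W).Point, lam ^ n ≤ S.card ∧ ∀ P ∈ S, lam ^ n • P = 0 ∧
      ∀ τ ∈ A.inertiaSubgroupIn ℚ,
        Point.map (W' := W.map (Int.castRingHom ℚ)) τ.toAlgHom P = P := by
  classical
  have : Fact q.Prime := ⟨hq⟩
  have hchar : CharP (IsLocalRing.ResidueField A) q :=
    Fermat.Agent.ES.KRON.KronInst10.charP_residueField A hq hA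
  let _ : Algebra (ZMod q) (IsLocalRing.ResidueField A) := ZMod.algebra _ q
  have : IsAlgClosed (IsLocalRing.ResidueField A) :=
    Fermat.Agent.ES.KRON.KronInst10.isAlgClosed_residueField A
  have hmodd : Odd (lam ^ n) := (hlam.odd_of_ne_two hlam2).pow
  have hqm : ¬ q ∣ lam ^ n := fun hd =>
    hlq ((Nat.prime_dvd_prime_iff_eq hq hlam).mp (hq.dvd_of_dvd_pow hd)).symm
  have hvm : A.valuation ((lam ^ n : ℕ) : Qb) = 1 := valuation_natCast_eq_one hq hA hqm
  have hcurve : ((W.reductionMod q)⁄(IsLocalRing.ResidueField A)).toAffine = Vκ A W := by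
    change (W.map (Int.castRingHom (ZMod q))).map
        (algebraMap (ZMod q) (IsLocalRing.ResidueField A)) =
      W.map (Int.castRingHom (IsLocalRing.ResidueField A))
    rw [WeierstrassCurve.map_map]
    congr 1
    exact RingHom.ext_int _ _
  have h0 := Fermat.Agent.ES.Q58.NodeCount15.exists_torsion_node W hΔ hc₄ hlam hlq n
    (IsLocalRing.ResidueField A)
  obtain ⟨S₀, hcard₀, hS₀⟩ : ∃ S : Finset (Vκ A W).Point,
      lam ^ n ≤ S.card ∧ ∀ P ∈ S, (lam ^ n) • P = 0 :=
    Eq.mp (congrArg (fun V : Affine (IsLocalRing.ResidueField A) =>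
      ∃ S : Finset V.Point, lam ^ n ≤ S.card ∧ ∀ P ∈ S, (lam ^ n) • P = 0) hcurve) h0
  -- lifting
  have key : ∀ R ∈ S₀, ∃ P : (EQ W).Point, (lam ^ n • P = 0 ∧
      ∀ τ ∈ A.inertiaSubgroupIn ℚ,
        Point.map (W' := W.map (Int.castRingHom ℚ)) τ.toAlgHom P = P) ∧ IsLiftOf W R P := by
    intro R hR
    have hR0 := hS₀ R hR
    rcases R with _ | ⟨ξ, η, hns⟩
    · exact ⟨0, ⟨nsmul_zero _, fun τ _ => rfl⟩, Or.inl ⟨rfl, rfl⟩⟩
    · obtain ⟨x, y, hx, hy, h', hP'⟩ := exists_lift_torsion A W hmodd hvm hns hR0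
      have h : (EQ W).Nonsingular (x : Qb) (y : Qb) := (EQ_eq W).symm ▸ h'
      have hP : lam ^ n • (Point.some _ _ h : (EQ W).Point) = 0 :=
        (nsmul_transfer (EQ_eq W) h h').mpr hP'
      have hns' : (Vκ A W).Nonsingular (IsLocalRing.residue A x) (IsLocalRing.residue A y) := by
        rw [hx, hy]; exact hns
      refine ⟨Point.some _ _ h, ⟨hP, fun τ hτ => inertia_fix W hq hA hτ hmodd hqm h hP hns'⟩,
        Or.inr ⟨x, y, h, hns', rfl, ?_⟩⟩
      subst hx hy
      rfl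
  choose! lift hlift using key
  have hinj : Set.InjOn lift S₀ := by
    intro R hR R' hR' hRR'
    have h1 := (hlift R hR).2
    have h2 := (hlift R' hR').2
    rw [← hRR'] at h2
    exact h1.unique W h2
  refine ⟨S₀.image lift, ?_, ?_⟩
  · rw [Finset.card_image_of_injOn hinj]
    exact hcard₀
  · intro P hP
    obtain ⟨R, hR, rfl⟩ := Finset.mem_image.mp hP
    exact (hlift R hR).1

include hq hA in
/-- **Good reduction: all `λⁿ`-torsion points are fixed by inertia.** -/
theorem exists_fixed_finset_good (hΔ0 : W.Δ ≠ 0) (hgood : ¬ (q : ℤ) ∣ W.Δ) {lam : ℕ}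
    (hlam : lam.Prime) (hlam2 : lam ≠ 2) (hlq : lam ≠ q) (n : ℕ) :
    ∃ S : Finset (EQ W).Point, lam ^ n ≤ S.card ∧ ∀ P ∈ S, lam ^ n • P = 0 ∧
      ∀ τ ∈ A.inertiaSubgroupIn ℚ,
        Point.map (W' := W.map (Int.castRingHom ℚ)) τ.toAlgHom P = P := by
  classical
  have hmodd : Odd (lam ^ n) := (hlam.odd_of_ne_two hlam2).pow
  have hqm : ¬ q ∣ lam ^ n := fun hd =>
    hlq ((Nat.prime_dvd_prime_iff_eq hq hlam).mp (hq.dvd_of_dvd_pow hd)).symm
  have hmF : ((lam ^ n : ℕ) : Qb) ≠ 0 := Nat.cast_ne_zero.mpr (pow_ne_zero _ hlam.ne_zero)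
  have hfin : {P : (EQ W).Point | (lam ^ n) • P = 0}.Finite :=
    (Fermat.Agent.DivPoly.A1Final.torsion_finite_ncard_le (W := EQ W) hmodd hmF).1
  have hΔQ : (W.map (Int.castRingHom ℚ)).Δ ≠ 0 := by
    rw [WeierstrassCurve.map_Δ, eq_intCast]
    exact_mod_cast hΔ0
  have hcard := Fermat.Agent.ES.Q58.CoordField13.card_torsionBy_odd hΔQ hmodd
  have hset : ((Submodule.torsionBy ℤ (EQ W).Point ((lam ^ n : ℕ) : ℤ) : Set (EQ W).Point))
      = {P : (EQ W).Point | (lam ^ n) • P = 0} := by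
    ext P
    simp only [SetLike.mem_coe, Submodule.mem_torsionBy_iff, Set.mem_ofPred_eq, natCast_zsmul]
  refine ⟨hfin.toFinset, ?_, ?_⟩
  · rw [← Set.ncard_eq_toFinset_card _ hfin, ← hset, ← _root_.Nat.card_coe_set_eq]
    have e : Nat.card ↥(↑(Submodule.torsionBy ℤ (EQ W).Point ((lam ^ n : ℕ) : ℤ)) :
        Set (EQ W).Point) = (lam ^ n) ^ 2 := hcard
    rw [e, sq]
    exact Nat.le_mul_self _
  · intro P hP
    have hP0 : (lam ^ n) • P = 0 := by simpa using hP
    exact ⟨hP0, fun τ hτ => inertia_fix_good W hq hA hgood hτ hmodd hqm P hP0⟩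

/-- **(E-ii)** at a prime `q` which is good or multiplicative, for an odd prime `λ ≠ q`. -/
theorem inertiaCong (W : WeierstrassCurve ℤ) (hΔ0 : W.Δ ≠ 0) {q : ℕ} (hq : q.Prime)
    (hss : (q : ℤ) ∣ W.Δ → ¬ (q : ℤ) ∣ W.c₄) {lam : ℕ} (hlam : lam.Prime) (hlam2 : lam ≠ 2)
    (hlq : lam ≠ q) : InertiaCong W lam q := by
  classical
  refine ⟨{lam}, fun n => ?_⟩
  have hmodd : Odd (lam ^ n) := (hlam.odd_of_ne_two hlam2).pow
  obtain ⟨K, hKfd, hK⟩ :=
    Fermat.Agent.ES.Q58.CoordField13.coordField (W.map (Int.castRingHom ℚ)) hmodd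
  refine ⟨K, hKfd, ?_⟩
  intro P hP τ hτ ℓ A φ hℓ hℓT hgood hA hφ i hi
  have hℓlam : ℓ ≠ lam := by simpa using hℓT
  obtain ⟨S, hcard, hS⟩ : ∃ S : Finset (EQ W).Point, lam ^ n ≤ S.card ∧
      ∀ Q ∈ S, lam ^ n • Q = 0 ∧ ∀ τ' ∈ P.inertiaSubgroupIn ℚ,
        Point.map (W' := W.map (Int.castRingHom ℚ)) τ'.toAlgHom Q = Q := by
    by_cases hbad : (q : ℤ) ∣ W.Δ
    · exact exists_fixed_finset_mult W hq hP hbad (hss hbad) hlam hlam2 hlq n
    · exact exists_fixed_finset_good W hq hP hΔ0 hbad hlam hlam2 hlq n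
  refine Fermat.Agent.ES.Q58.WeakLink25.weakLink W hℓ hlam hlam2 hℓlam hgood hA hφ S
    (fun Q hQ => ⟨(hS Q hQ).1, ?_⟩) hcard
  rw [hK Q (hS Q hQ).1 φ (τ ^ i) hi]
  exact (hS Q hQ).2 (τ ^ i) (Subgroup.pow_mem _ hτ i)

/-- **`ECFacts.inertia`** for a semistable model with `Δ ≠ 0`. -/
theorem ecFacts_inertia (W : WeierstrassCurve ℤ) (hΔ0 : W.Δ ≠ 0) (hss : W.IsSemistableModel)
    (q : ℕ) (hq : q.Prime) :
    ∃ T : Finset ℕ, ∀ lam : ℕ, lam.Prime → lam ∉ T → InertiaCong W lam q := by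
  refine ⟨{2, q}, fun lam hlam hT => ?_⟩
  have h2 : lam ≠ 2 := fun h => hT (by simp [h])
  have hlq : lam ≠ q := fun h => hT (by simp [h])
  exact inertiaCong W hΔ0 hq (hss q hq) hlam h2 hlq

end Qbar

end Fermat.Agent.ES.Q58.InertiaFixA
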