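/-
Programme Q (S58), reduction homomorphism chunk (helper9), file 1/3: **slopes under reduction**.

`L` a field, `A : ValuationSubring L`, `κ = IsLocalRing.ResidueField A`, `WA` a Weierstrass curve over
(the ring) `A`; `WL WA = WA.map A.subtype` (generic fibre), `Wk WA = WA.map (residue A)` (special fibre).
For two points `(x₁, y₁)`, `(x₂, y₂)` with coordinates in `A`:

* `exists_slope` : if the reductions are not opposite, the slope over `L` lies in `A` and reduces to the
  slope over `κ` (all cases: chord with distinct residues, chord with equal residues, tangent);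
* `one_lt_valuation_slope` : if the reductions are opposite (and nonsingular) but the points are not
  opposite, the slope is NOT integral (`1 < v slope`);
* `one_lt_valuation_addX` : then the `x`-coordinate of the sum is not integral either.
Mathlib only.
-/
import Mathlib

set_option autoImplicit false

open WeierstrassCurve WeierstrassCurve.Affine

namespace Fermat.Agent.ES.Q58.Red9

variable {L : Type*} [Field L]

/-- The residue field of a valuation subring. -/
abbrev kap (A : ValuationSubring L) : Type _ := IsLocalRing.ResidueField A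

/-- The residue map of a valuation subring. -/
abbrev res (A : ValuationSubring L) : A →+* kap A := IsLocalRing.residue A

/-- The generic fibre of a Weierstrass curve over a valuation subring. -/
abbrev WL {A : ValuationSubring L} (WA : WeierstrassCurve A) : Affine L := WA.map A.subtype

/-- The special fibre of a Weierstrass curve over a valuation subring. -/
abbrev Wk {A : ValuationSubring L} (WA : WeierstrassCurve A) : Affine (kap A) := WA.map (res A)

variable {A : ValuationSubring L} {WA : WeierstrassCurve A}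

theorem isUnit_of_res_ne_zero {a : A} (h : res A a ≠ 0) : IsUnit a :=
  (IsLocalRing.residue_ne_zero_iff_isUnit a).mp h

theorem res_eq_zero_iff {a : A} : res A a = 0 ↔ a ∈ IsLocalRing.maximalIdeal A :=
  IsLocalRing.residue_eq_zero_iff a

theorem valuation_lt_one_of_res_eq_zero {a : A} (h : res A a = 0) : A.valuation (a : L) < 1 :=
  (A.valuation_lt_one_iff a).mp (res_eq_zero_iff.mp h)

theorem valuation_eq_one_of_res_ne_zero {a : A} (h : res A a ≠ 0) : A.valuation (a : L) = 1 :=
  (A.valuation_eq_one_iff a).mp (isUnit_of_res_ne_zero h)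

theorem coe_inj {a b : A} : (a : L) = b ↔ a = b := Subtype.ext_iff.symm

/-- The basic identity relating the chord slope to the "tangent-like" slope. -/
theorem chord_identity {R : Type*} [CommRing R] {W : Affine R} {x₁ x₂ y₁ y₂ : R}
    (h₁ : W.Equation x₁ y₁) (h₂ : W.Equation x₂ y₂) :
    (y₁ - y₂) * (y₁ - W.negY x₂ y₂) =
      (x₁ - x₂) * (x₁ ^ 2 + x₁ * x₂ + x₂ ^ 2 + W.a₂ * (x₁ + x₂) + W.a₄ - W.a₁ * y₁) := by
  rw [equation_iff] at h₁ h₂
  simp only [negY]
  linear_combination h₁ - h₂

section Slope

variable [DecidableEq L] [DecidableEq (kap A)]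

/-- **Integral slopes.** If the reductions of two integral points are not opposite, the slope of the
line through them is integral and reduces to the slope of the reductions. -/
theorem exists_slope {x₁ x₂ y₁ y₂ : A} (h₁ : WA.toAffine.Equation x₁ y₁)
    (h₂ : WA.toAffine.Equation x₂ y₂)
    (hne : ¬ (res A x₁ = res A x₂ ∧ res A y₁ = (Wk WA).negY (res A x₂) (res A y₂))) :
    ∃ l : A, (l : L) = (WL WA).slope x₁ x₂ y₁ y₂ ∧
      res A l = (Wk WA).slope (res A x₁) (res A x₂) (res A y₁) (res A y₂) := by
  by_cases hx : res A x₁ = res A x₂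
  · -- equal `x`-residues: use the second form of the slope
    have hy : res A y₁ ≠ (Wk WA).negY (res A x₂) (res A y₂) := fun h => hne ⟨hx, h⟩
    set D : A := y₁ - WA.toAffine.negY x₂ y₂ with hD
    set N : A := x₁ ^ 2 + x₁ * x₂ + x₂ ^ 2 + WA.a₂ * (x₁ + x₂) + WA.a₄ - WA.a₁ * y₁ with hN
    have hresD : res A D = res A y₁ - (Wk WA).negY (res A x₂) (res A y₂) := by
      rw [hD, map_sub, ← map_negY]
    have hDunit : IsUnit D := isUnit_of_res_ne_zero (by rw [hresD]; exact sub_ne_zero.mpr hy)
    obtain ⟨u, hu⟩ := hDunit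
    have hid : (y₁ - y₂) * D = (x₁ - x₂) * N := chord_identity h₁ h₂
    have hyres : res A y₁ = res A y₂ :=
      Y_eq_of_Y_ne (h₁.map (res A)) (h₂.map (res A)) hx hy
    refine ⟨N * (u⁻¹ : Aˣ), ?_, ?_⟩
    · have huL : (D : L) ≠ 0 := by
        rw [← hu]
        exact fun h => u.ne_zero (Subtype.ext h)
      have hval : ((N * (u⁻¹ : Aˣ) : A) : L) = (N : L) / (D : L) := by
        rw [eq_div_iff huL, ← hu]
        push_cast
        rw [mul_assoc, ← MulMemClass.coe_mul, Units.inv_mul, OneMemClass.coe_one, mul_one]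
      rw [hval]
      by_cases hxL : (x₁ : L) = x₂
      · have hxA : x₁ = x₂ := Subtype.ext hxL
        have hyA : y₁ = y₂ := by
          have h0 : (y₁ - y₂) * D = 0 := by rw [hid, hxA, sub_self, zero_mul]
          have hD0 : D ≠ 0 := by rw [← hu]; exact u.ne_zero
          exact sub_eq_zero.mp ((mul_eq_zero.mp h0).resolve_right hD0)
        have hyL : (y₁ : L) ≠ (WL WA).negY x₂ y₂ := by
          intro h
          apply huL
          rw [hD]
          have : ((WA.toAffine.negY x₂ y₂ : A) : L) = (WL WA).negY x₂ y₂ :=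
            (map_negY (W' := WA.toAffine) A.subtype x₂ y₂).symm
          push_cast
          rw [this, h, sub_self]
        rw [slope_of_Y_ne hxL hyL]
        have e1 : (N : L) = 3 * (x₁ : L) ^ 2 + 2 * (WL WA).a₂ * x₁ + (WL WA).a₄ - (WL WA).a₁ * y₁ := by
          rw [hN, ← hxA]
          simp only [WeierstrassCurve.map_a₁, WeierstrassCurve.map_a₂, WeierstrassCurve.map_a₄,
            ValuationSubring.coe_subtype]
          push_cast
          ring
        have e2 : (D : L) = (y₁ : L) - (WL WA).negY x₁ y₁ := by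
          rw [hD, ← hxA, ← hyA]
          have : ((WA.toAffine.negY x₁ y₁ : A) : L) = (WL WA).negY x₁ y₁ :=
            (map_negY (W' := WA.toAffine) A.subtype x₁ y₁).symm
          push_cast
          rw [this]
        rw [e1, e2]
      · rw [slope_of_X_ne hxL]
        have hsub : ((x₁ : L) - x₂) ≠ 0 := sub_ne_zero.mpr hxL
        rw [div_eq_div_iff huL hsub]
        have := congrArg (fun a : A => (a : L)) hid
        push_cast at this
        linear_combination -this
    · rw [slope_of_Y_ne hx hy, map_mul]
      have hinv : res A ((u⁻¹ : Aˣ) : A) = (res A D)⁻¹ := by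
        rw [← hu]
        exact (map_units_inv (res A) u)
      rw [hinv, ← div_eq_mul_inv]
      congr 1
      · rw [hN]
        simp only [map_sub, map_add, map_mul, map_pow, WeierstrassCurve.map_a₁,
          WeierstrassCurve.map_a₂, WeierstrassCurve.map_a₄]
        rw [← hx]
        ring
      · rw [hresD, ← hx, ← hyres]
  · -- distinct `x`-residues: the chord
    have hunit : IsUnit (x₁ - x₂) :=
      isUnit_of_res_ne_zero (by rw [map_sub]; exact sub_ne_zero.mpr hx)
    obtain ⟨u, hu⟩ := hunit
    have hxL : (x₁ : L) ≠ x₂ := fun h => hx (by rw [Subtype.ext h])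
    have hsub : ((x₁ : L) - x₂) ≠ 0 := sub_ne_zero.mpr hxL
    refine ⟨(y₁ - y₂) * (u⁻¹ : Aˣ), ?_, ?_⟩
    · rw [slope_of_X_ne hxL, eq_div_iff hsub]
      have : ((x₁ : L) - x₂) = ((u : A) : L) := by rw [hu]; push_cast; rfl
      rw [this]
      push_cast
      rw [mul_assoc, ← MulMemClass.coe_mul, Units.inv_mul, OneMemClass.coe_one, mul_one]
    · rw [slope_of_X_ne hx, map_mul]
      have hinv : res A ((u⁻¹ : Aˣ) : A) = (res A (x₁ - x₂))⁻¹ := by
        rw [← hu]
        exact (map_units_inv (res A) u)
      rw [hinv, ← div_eq_mul_inv, map_sub, map_sub]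

omit [DecidableEq (kap A)] in
/-- **Non-integral slopes.** If the reductions of two integral points are opposite nonsingular points,
but the points themselves are not opposite, the slope of the line through them is not integral. -/
theorem one_lt_valuation_slope {x₁ x₂ y₁ y₂ : A} (h₁ : WA.toAffine.Equation x₁ y₁)
    (h₂ : WA.toAffine.Equation x₂ y₂)
    (hx : res A x₁ = res A x₂) (hy : res A y₁ = (Wk WA).negY (res A x₂) (res A y₂))
    (hns : (Wk WA).Nonsingular (res A x₁) (res A y₁))
    (hxy : ¬ ((x₁ : L) = x₂ ∧ (y₁ : L) = (WL WA).negY x₂ y₂)) :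
    1 < A.valuation ((WL WA).slope x₁ x₂ y₁ y₂) := by
  set D : A := y₁ - WA.toAffine.negY x₂ y₂ with hD
  set N : A := x₁ ^ 2 + x₁ * x₂ + x₂ ^ 2 + WA.a₂ * (x₁ + x₂) + WA.a₄ - WA.a₁ * y₁ with hN
  have hnegL : ∀ x y : A, ((WA.toAffine.negY x y : A) : L) = (WL WA).negY x y := fun x y =>
    (map_negY (W' := WA.toAffine) A.subtype x y).symm
  have hresD : res A D = 0 := by
    rw [hD, map_sub, ← map_negY, sub_eq_zero]
    exact hy
  have hvD : A.valuation (D : L) < 1 := valuation_lt_one_of_res_eq_zero hresD
  have hid : (y₁ - y₂) * D = (x₁ - x₂) * N := chord_identity h₁ h₂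
  have hresN : res A N = 3 * res A x₁ ^ 2 + 2 * (Wk WA).a₂ * res A x₁ + (Wk WA).a₄ -
      (Wk WA).a₁ * res A y₁ := by
    rw [hN]
    simp only [map_sub, map_add, map_mul, map_pow, WeierstrassCurve.map_a₁,
      WeierstrassCurve.map_a₂, WeierstrassCurve.map_a₄]
    rw [← hx]
    ring
  have hy₂ : res A y₂ = (Wk WA).negY (res A x₁) (res A y₁) := by
    rw [hy, hx, negY_negY]
  rw [nonsingular_iff] at hns
  obtain ⟨-, hns⟩ := hns
  by_cases hxL : (x₁ : L) = x₂
  · -- the tangent case
    have hxA : x₁ = x₂ := Subtype.ext hxL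
    have hyL : (y₁ : L) ≠ (WL WA).negY x₂ y₂ := fun h => hxy ⟨hxL, h⟩
    have hD0 : (D : L) ≠ 0 := by
      rw [hD]
      push_cast
      rw [hnegL]
      exact sub_ne_zero.mpr hyL
    have hyA : y₁ = y₂ := by
      have h0 : (y₁ - y₂) * D = 0 := by rw [hid, hxA, sub_self, zero_mul]
      have hD0' : D ≠ 0 := fun h => hD0 (by rw [h]; rfl)
      exact sub_eq_zero.mp ((mul_eq_zero.mp h0).resolve_right hD0')
    have hX : (Wk WA).a₁ * res A y₁ ≠ 3 * res A x₁ ^ 2 + 2 * (Wk WA).a₂ * res A x₁ + (Wk WA).a₄ := by
      refine hns.resolve_right ?_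
      rw [not_not]
      have := hy
      rw [← hx, ← hyA] at this
      simpa only [negY] using this
    have hNunit : A.valuation (N : L) = 1 := valuation_eq_one_of_res_ne_zero (by
      rw [hresN]
      exact sub_ne_zero.mpr hX.symm)
    rw [slope_of_Y_ne hxL hyL]
    have e1 : 3 * (x₁ : L) ^ 2 + 2 * (WL WA).a₂ * x₁ + (WL WA).a₄ - (WL WA).a₁ * y₁ = (N : L) := by
      rw [hN, ← hxA]
      simp only [WeierstrassCurve.map_a₁, WeierstrassCurve.map_a₂, WeierstrassCurve.map_a₄,
        ValuationSubring.coe_subtype]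
      push_cast
      ring
    have e2 : (y₁ : L) - (WL WA).negY x₁ y₁ = (D : L) := by
      rw [hD, ← hxA, ← hyA]
      push_cast
      rw [hnegL]
    rw [e1, e2, map_div₀, hNunit, one_div]
    exact (one_lt_inv₀ (by rw [Valuation.pos_iff]; exact hD0)).mpr hvD
  · -- the chord case
    have hsub : ((x₁ : L) - x₂) ≠ 0 := sub_ne_zero.mpr hxL
    have hvsub : A.valuation ((x₁ : L) - x₂) < 1 := by
      have : res A (x₁ - x₂) = 0 := by rw [map_sub, hx, sub_self]
      simpa using valuation_lt_one_of_res_eq_zero this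
    have hvsub0 : 0 < A.valuation ((x₁ : L) - x₂) := by rw [Valuation.pos_iff]; exact hsub
    rw [slope_of_X_ne hxL, map_div₀]
    have hidL : ((y₁ : L) - y₂) * (D : L) = ((x₁ : L) - x₂) * (N : L) := by
      have := congrArg (fun a : A => (a : L)) hid
      push_cast at this
      exact this
    rcases hns with hX | hY
    · -- `N` is a unit
      have hNunit : A.valuation (N : L) = 1 := valuation_eq_one_of_res_ne_zero (by
        rw [hresN]
        exact sub_ne_zero.mpr hX.symm)
      have hv := congrArg A.valuation hidL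
      rw [map_mul, map_mul, hNunit, mul_one] at hv
      -- `v (y₁ - y₂) * v D = v (x₁ - x₂)` with `v D < 1`
      have hvy0 : A.valuation ((y₁ : L) - y₂) ≠ 0 := by
        intro h0
        rw [h0, zero_mul] at hv
        exact hvsub0.ne hv
      have hlt : A.valuation ((x₁ : L) - x₂) < A.valuation ((y₁ : L) - y₂) := by
        rw [← hv]
        calc A.valuation ((y₁ : L) - y₂) * A.valuation (D : L)
            < A.valuation ((y₁ : L) - y₂) * 1 :=
              mul_lt_mul_of_pos_left hvD (zero_lt_iff.mpr hvy0)
          _ = _ := mul_one _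
      exact (one_lt_div₀ hvsub0).mpr hlt
    · -- `y₁ - y₂` is a unit
      have hYunit : A.valuation ((y₁ : L) - y₂) = 1 := by
        have : res A (y₁ - y₂) ≠ 0 := by
          rw [map_sub, hy₂]
          simp only [negY]
          exact sub_ne_zero.mpr hY
        simpa using valuation_eq_one_of_res_ne_zero this
      rw [hYunit, one_div]
      exact (one_lt_inv₀ hvsub0).mpr hvsub

omit [DecidableEq L] [DecidableEq (kap A)] in
/-- If the slope is not integral (and `x₁ x₂` are), the `x`-coordinate of the sum is not integral. -/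
theorem one_lt_valuation_addX {x₁ x₂ : A} {l : L} (hl : 1 < A.valuation l) :
    1 < A.valuation ((WL WA).addX x₁ x₂ l) := by
  have hl0 : 0 < A.valuation l := lt_trans zero_lt_one hl
  have hsq : A.valuation l < A.valuation (l ^ 2) := by
    rw [map_pow, sq]
    calc A.valuation l = A.valuation l * 1 := (mul_one _).symm
      _ < A.valuation l * A.valuation l := mul_lt_mul_of_pos_left hl hl0
  have hrest : A.valuation ((WL WA).a₁ * l - (WL WA).a₂ - x₁ - x₂) < A.valuation (l ^ 2) := by
    have ha₁ : A.valuation ((WL WA).a₁ * l) ≤ A.valuation l := by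
      rw [map_mul]
      calc A.valuation (WL WA).a₁ * A.valuation l ≤ 1 * A.valuation l :=
            mul_le_mul' (A.valuation_le_one WA.a₁) le_rfl
        _ = _ := one_mul _
    have ha₂ : A.valuation ((WL WA).a₂) ≤ 1 := A.valuation_le_one WA.a₂
    have hx₁ : A.valuation (x₁ : L) ≤ 1 := A.valuation_le_one x₁
    have hx₂ : A.valuation (x₂ : L) ≤ 1 := A.valuation_le_one x₂
    have h1 : A.valuation ((WL WA).a₁ * l - (WL WA).a₂) ≤ A.valuation l :=
      (Valuation.map_sub _ _ _).trans (max_le ha₁ (ha₂.trans hl.le))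
    have h2 : A.valuation ((WL WA).a₁ * l - (WL WA).a₂ - x₁) ≤ A.valuation l :=
      (Valuation.map_sub _ _ _).trans (max_le h1 (hx₁.trans hl.le))
    have h3 : A.valuation ((WL WA).a₁ * l - (WL WA).a₂ - x₁ - x₂) ≤ A.valuation l :=
      (Valuation.map_sub _ _ _).trans (max_le h2 (hx₂.trans hl.le))
    exact lt_of_le_of_lt h3 hsq
  have heq : (WL WA).addX x₁ x₂ l = l ^ 2 + ((WL WA).a₁ * l - (WL WA).a₂ - x₁ - x₂) := by
    simp only [addX]
    ring
  rw [heq, Valuation.map_add_eq_of_lt_left _ hrest]
  exact lt_trans hl hsq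

end Slope

end Fermat.Agent.ES.Q58.Red9
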