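/-
Programme Q (S58), reduction homomorphism chunk (helper9), file 2/3: **the reduction map is a group
homomorphism** (good reduction).

`L` a field, `A : ValuationSubring L`, `κ = kap A` its residue field, `WA` a Weierstrass curve over `A`
whose special fibre `Wk WA` has `Δ ≠ 0`.  `red hΔ : (WL WA).Point → (Wk WA).Point` sends a point with
integral coordinates to the point with the residue coordinates and every other point (the kernel of
reduction `E₁` of `S05.Kernel`, for the valuation `A.valuation`) to `0`.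

* `red_add`, `redHom hΔ : (WL WA).Point →+ (Wk WA).Point`;
* `red_eq_zero_iff : red hΔ P = 0 ↔ InE1 A.valuation P`;
* `red_coe` : coordinates of the reduction of an integral point.
-/
import Mathlib
import Fermat.Agent.S05.Kernel
import Fermat.Agent.ES.Q58.Red9Core

set_option autoImplicit false

open WeierstrassCurve WeierstrassCurve.Affine
open Fermat.Agent.S05.Kernel

namespace Fermat.Agent.ES.Q58.Red9

variable {L : Type*} [Field L] {A : ValuationSubring L} {WA : WeierstrassCurve A}

theorem integralCoeffs (WA : WeierstrassCurve A) : IntegralCoeffs A.valuation (WL WA) :=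
  ⟨A.valuation_le_one WA.a₁, A.valuation_le_one WA.a₂, A.valuation_le_one WA.a₃,
    A.valuation_le_one WA.a₄, A.valuation_le_one WA.a₆⟩

/-- On an integral Weierstrass curve, `y` is integral as soon as `x` is. -/
theorem y_mem_of_x_mem {x y : L} (h : (WL WA).Equation x y) (hx : x ∈ A) : y ∈ A := by
  rw [← A.valuation_le_one_iff] at hx ⊢
  by_contra hy
  exact absurd hx (not_le.mpr (vx_of_vy (integralCoeffs WA) h (not_le.mp hy)))

/-- The equation over `A` from the equation over `L`. -/
theorem equation_of_coe {x y : A} (h : (WL WA).Equation (x : L) (y : L)) :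
    WA.toAffine.Equation x y :=
  (map_equation (W := WA.toAffine) (f := A.subtype) Subtype.val_injective x y).mp h

theorem nonsingular_res (hΔ : (Wk WA).Δ ≠ 0) {x y : A} (h : (WL WA).Equation (x : L) (y : L)) :
    (Wk WA).Nonsingular (res A x) (res A y) :=
  (equation_iff_nonsingular_of_Δ_ne_zero hΔ).mp ((equation_of_coe h).map (res A))

theorem coe_negY (x y : A) : ((WA.toAffine.negY x y : A) : L) = (WL WA).negY x y :=
  (map_negY (W' := WA.toAffine) A.subtype x y).symm

theorem res_negY (x y : A) : res A (WA.toAffine.negY x y) = (Wk WA).negY (res A x) (res A y) :=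
  (map_negY (W' := WA.toAffine) (res A) x y).symm

theorem coe_addX (x₁ x₂ l : A) :
    ((WA.toAffine.addX x₁ x₂ l : A) : L) = (WL WA).addX x₁ x₂ l :=
  (map_addX (W' := WA.toAffine) A.subtype x₁ x₂ l).symm

theorem res_addX (x₁ x₂ l : A) :
    res A (WA.toAffine.addX x₁ x₂ l) = (Wk WA).addX (res A x₁) (res A x₂) (res A l) :=
  (map_addX (W' := WA.toAffine) (res A) x₁ x₂ l).symm

theorem coe_addY (x₁ x₂ y₁ l : A) :
    ((WA.toAffine.addY x₁ x₂ y₁ l : A) : L) = (WL WA).addY x₁ x₂ y₁ l :=
  (map_addY (W' := WA.toAffine) A.subtype x₁ y₁ x₂ l).symm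

theorem res_addY (x₁ x₂ y₁ l : A) :
    res A (WA.toAffine.addY x₁ x₂ y₁ l) =
      (Wk WA).addY (res A x₁) (res A x₂) (res A y₁) (res A l) :=
  (map_addY (W' := WA.toAffine) (res A) x₁ y₁ x₂ l).symm

open scoped Classical in
/-- **The reduction map** (good reduction). -/
noncomputable def red (hΔ : (Wk WA).Δ ≠ 0) : (WL WA).Point → (Wk WA).Point
  | .zero => 0
  | .some x y h =>
    if hx : x ∈ A then
      Point.some (res A ⟨x, hx⟩) (res A ⟨y, y_mem_of_x_mem h.1 hx⟩)
        (nonsingular_res hΔ (x := ⟨x, hx⟩) (y := ⟨y, y_mem_of_x_mem h.1 hx⟩) h.1)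
    else 0

variable (hΔ : (Wk WA).Δ ≠ 0)

@[simp] theorem red_zero : red hΔ (0 : (WL WA).Point) = 0 := rfl

theorem red_some_of_mem {x y : L} (h : (WL WA).Nonsingular x y) (hx : x ∈ A) :
    red hΔ (Point.some x y h) =
      Point.some (res A ⟨x, hx⟩) (res A ⟨y, y_mem_of_x_mem h.1 hx⟩)
        (nonsingular_res hΔ (x := ⟨x, hx⟩) (y := ⟨y, y_mem_of_x_mem h.1 hx⟩) h.1) := by
  simp only [red, dif_pos hx]

theorem red_some_of_not_mem {x y : L} (h : (WL WA).Nonsingular x y) (hx : x ∉ A) :
    red hΔ (Point.some x y h) = 0 := by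
  simp only [red, dif_neg hx]

/-- The reduction of a point with coordinates in `A`. -/
theorem red_coe {x y : A} (h : (WL WA).Nonsingular (x : L) (y : L)) :
    red hΔ (Point.some (x : L) (y : L) h) =
      Point.some (res A x) (res A y) (nonsingular_res hΔ h.1) := by
  rw [red_some_of_mem hΔ h x.2]

/-- The reduction of a point whose coordinates are given as equal to elements of `A`. -/
theorem red_some_eq {x y : L} (h : (WL WA).Nonsingular x y) {x' y' : A} (hx : x = x')
    (hy : y = y') :
    red hΔ (Point.some x y h) =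
      Point.some (res A x') (res A y') (nonsingular_res hΔ (by subst hx hy; exact h.1)) := by
  subst hx hy
  exact red_coe hΔ h

theorem red_eq_zero_iff (P : (WL WA).Point) : red hΔ P = 0 ↔ InE1 A.valuation P := by
  rcases P with _ | ⟨x, y, h⟩
  · exact ⟨fun _ => inE1_zero _, fun _ => rfl⟩
  · rw [inE1_some]
    by_cases hx : x ∈ A
    · rw [red_some_of_mem hΔ h hx]
      constructor
      · intro h0
        exact absurd h0 (Point.some_ne_zero _)
      · intro h1
        exact absurd ((A.valuation_le_one_iff x).mpr hx) (not_le.mpr h1)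
    · rw [red_some_of_not_mem hΔ h hx]
      refine ⟨fun _ => ?_, fun _ => rfl⟩
      exact not_le.mp (fun hle => hx ((A.valuation_le_one_iff x).mp hle))

theorem red_neg (P : (WL WA).Point) : red hΔ (-P) = -red hΔ P := by
  rcases P with _ | ⟨x, y, h⟩
  · rfl
  · by_cases hx : x ∈ A
    · obtain ⟨x, rfl⟩ : ∃ x' : A, (x' : L) = x := ⟨⟨x, hx⟩, rfl⟩
      obtain ⟨y, rfl⟩ : ∃ y' : A, (y' : L) = y := ⟨⟨y, y_mem_of_x_mem h.1 hx⟩, rfl⟩
      rw [Point.neg_some, red_coe, Point.neg_some,
        red_some_eq hΔ _ rfl (coe_negY x y).symm]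
      simp only [Point.some.injEq, true_and]
      exact res_negY x y
    · rw [Point.neg_some, red_some_of_not_mem hΔ _ hx, red_some_of_not_mem hΔ _ hx, Point.neg_zero]

section Add

variable [DecidableEq L] [DecidableEq (kap A)]

/-- Additivity of the reduction map for two points outside the kernel of reduction. -/
theorem red_add_of_not_inE1 {P Q : (WL WA).Point} (hP : ¬ InE1 A.valuation P)
    (hQ : ¬ InE1 A.valuation Q) : red hΔ (P + Q) = red hΔ P + red hΔ Q := by
  rcases P with _ | ⟨x₁, y₁, h₁⟩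
  · exact absurd (inE1_zero _) hP
  rcases Q with _ | ⟨x₂, y₂, h₂⟩
  · exact absurd (inE1_zero _) hQ
  rw [inE1_some, not_lt, A.valuation_le_one_iff] at hP hQ
  obtain ⟨x₁, rfl⟩ : ∃ x' : A, (x' : L) = x₁ := ⟨⟨x₁, hP⟩, rfl⟩
  obtain ⟨y₁, rfl⟩ : ∃ y' : A, (y' : L) = y₁ := ⟨⟨y₁, y_mem_of_x_mem h₁.1 hP⟩, rfl⟩
  obtain ⟨x₂, rfl⟩ : ∃ x' : A, (x' : L) = x₂ := ⟨⟨x₂, hQ⟩, rfl⟩
  obtain ⟨y₂, rfl⟩ : ∃ y' : A, (y' : L) = y₂ := ⟨⟨y₂, y_mem_of_x_mem h₂.1 hQ⟩, rfl⟩
  have e₁ := equation_of_coe h₁.1
  have e₂ := equation_of_coe h₂.1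
  rw [red_coe, red_coe]
  by_cases hne : res A x₁ = res A x₂ ∧ res A y₁ = (Wk WA).negY (res A x₂) (res A y₂)
  · -- opposite reductions
    rw [Point.add_of_Y_eq hne.1 hne.2]
    by_cases hxy : (x₁ : L) = x₂ ∧ (y₁ : L) = (WL WA).negY x₂ y₂
    · rw [Point.add_of_Y_eq hxy.1 hxy.2]
      rfl
    · rw [Point.add_some hxy]
      apply red_some_of_not_mem
      intro hmem
      have h1 := one_lt_valuation_addX (WA := WA) (x₁ := x₁) (x₂ := x₂)
        (one_lt_valuation_slope e₁ e₂ hne.1 hne.2 (nonsingular_res hΔ h₁.1) hxy)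
      exact absurd ((A.valuation_le_one_iff _).mpr hmem) (not_le.mpr h1)
  · obtain ⟨l, hl1, hl2⟩ := exists_slope e₁ e₂ hne
    have hxy : ¬ ((x₁ : L) = x₂ ∧ (y₁ : L) = (WL WA).negY x₂ y₂) := by
      rintro ⟨hx, hy⟩
      apply hne
      have hxA : x₁ = x₂ := Subtype.ext hx
      have hyA : y₁ = WA.toAffine.negY x₂ y₂ := Subtype.ext (by rw [hy, coe_negY])
      exact ⟨by rw [hxA], by rw [hyA, res_negY]⟩
    rw [Point.add_some hxy, Point.add_some hne]
    rw [red_some_eq hΔ _ (x' := WA.toAffine.addX x₁ x₂ l) (y' := WA.toAffine.addY x₁ x₂ y₁ l)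
      (by rw [coe_addX, hl1]) (by rw [coe_addY, hl1])]
    simp only [Point.some.injEq]
    exact ⟨by rw [res_addX, hl2], by rw [res_addY, hl2]⟩

/-- Additivity of the reduction map: one point outside the kernel of reduction, one inside. -/
theorem red_add_mixed {P Q : (WL WA).Point} (hP : ¬ InE1 A.valuation P)
    (hQ : InE1 A.valuation Q) : red hΔ (P + Q) = red hΔ P + red hΔ Q := by
  have hW := integralCoeffs WA
  have hS : ¬ InE1 A.valuation (P + Q) := by
    intro hS
    apply hP
    have : P = (P + Q) - Q := by abel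
    rw [this]
    exact (E1 A.valuation (WL WA) hW).sub_mem hS hQ
  have hnegP : ¬ InE1 A.valuation (-P) := by
    intro h
    apply hP
    have := h.neg
    rwa [neg_neg] at this
  have h := red_add_of_not_inE1 hΔ hS hnegP
  have hsum : P + Q + -P = Q := by abel
  rw [hsum, (red_eq_zero_iff hΔ _).mpr hQ, red_neg] at h
  rw [(red_eq_zero_iff hΔ _).mpr hQ, add_zero]
  exact (add_neg_eq_zero.mp h.symm)

/-- **The reduction map is additive.** -/
theorem red_add (P Q : (WL WA).Point) : red hΔ (P + Q) = red hΔ P + red hΔ Q := by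
  have hW := integralCoeffs WA
  by_cases hP : InE1 A.valuation P
  · by_cases hQ : InE1 A.valuation Q
    · have hPQ : InE1 A.valuation (P + Q) := (E1 A.valuation (WL WA) hW).add_mem hP hQ
      rw [(red_eq_zero_iff hΔ _).mpr hP, (red_eq_zero_iff hΔ _).mpr hQ,
        (red_eq_zero_iff hΔ _).mpr hPQ, add_zero]
    · rw [add_comm P Q, add_comm (red hΔ P)]
      exact red_add_mixed hΔ hQ hP
  · by_cases hQ : InE1 A.valuation Q
    · exact red_add_mixed hΔ hP hQ
    · exact red_add_of_not_inE1 hΔ hP hQ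

/-- **The reduction homomorphism** `W(L) →+ W̃(κ)` of a Weierstrass curve with good reduction over a
valuation subring. -/
noncomputable def redHom : (WL WA).Point →+ (Wk WA).Point where
  toFun := red hΔ
  map_zero' := rfl
  map_add' := red_add hΔ

@[simp] theorem redHom_apply (P : (WL WA).Point) : redHom hΔ P = red hΔ P := rfl

theorem redHom_eq_zero_iff (P : (WL WA).Point) : redHom hΔ P = 0 ↔ InE1 A.valuation P :=
  red_eq_zero_iff hΔ P

/-- The reduction map is injective on points killed by an integer that is a unit of `A`. -/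
theorem eq_zero_of_redHom_eq_zero_of_nsmul {P : (WL WA).Point} {n : ℕ}
    (hn : A.valuation (n : L) = 1) (hnP : n • P = 0) (hred : redHom hΔ P = 0) : P = 0 :=
  eq_zero_of_nsmul_eq_zero (integralCoeffs WA) ((redHom_eq_zero_iff hΔ P).mp hred) hn hnP

end Add

end Fermat.Agent.ES.Q58.Red9
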