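/-
Programme Q (S58), reduction homomorphism chunk (helper9), file 3/3: **packaging**.

* `exists_redHom` : the reduction homomorphism for ANY presentation of the generic and special fibres
  (`W : Affine L`, `W' : Affine (kap A)` with `WL WA = W`, `Wk WA = W'` for some model `WA` over `A`),
  with its three characteristic properties (coordinates of the reduction of an integral point,
  non-integral points go to `0`, kernel `= E₁`) and `IntegralCoeffs`.
* the decomposition group: `σ x ∈ A ↔ x ∈ A`, and the residue of `σ x` is `σ̄ (res x)`.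
-/
import Mathlib
import Fermat.Agent.ES.Q58.Red9Hom

set_option autoImplicit false

open WeierstrassCurve WeierstrassCurve.Affine
open Fermat.Agent.S05.Kernel

namespace Fermat.Agent.ES.Q58.Red9

section Wrapper

variable {L : Type*} [Field L] [DecidableEq L] (A : ValuationSubring L) [DecidableEq (kap A)]

/-- **Reduction homomorphism, presentation-free form.** -/
theorem exists_redHom (W : Affine L) (W' : Affine (kap A)) (WA : WeierstrassCurve A)
    (hL : WL WA = W) (hk : Wk WA = W') (hΔ : W'.Δ ≠ 0) :
    ∃ f : W.Point →+ W'.Point,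
      (∀ (x y : A) (h : W.Nonsingular (x : L) (y : L)),
        ∃ h', f (Point.some _ _ h) = Point.some (res A x) (res A y) h') ∧
      (∀ (x y : L) (h : W.Nonsingular x y), x ∉ A → f (Point.some _ _ h) = 0) ∧
      (∀ P, f P = 0 ↔ InE1 A.valuation P) ∧
      IntegralCoeffs A.valuation W := by
  subst hL hk
  exact ⟨redHom hΔ, fun x y h => ⟨_, red_coe hΔ h⟩, fun x y h hx => red_some_of_not_mem hΔ h hx,
    redHom_eq_zero_iff hΔ, integralCoeffs WA⟩

omit [DecidableEq L] [DecidableEq (kap A)] in
/-- On a Weierstrass curve with integral coefficients, `y` is integral as soon as `x` is. -/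
theorem y_mem_of_x_mem' {A : ValuationSubring L} {W : Affine L}
    (hW : IntegralCoeffs A.valuation W) {x y : L} (h : W.Equation x y) (hx : x ∈ A) : y ∈ A := by
  rw [← A.valuation_le_one_iff] at hx ⊢
  by_contra hy
  exact absurd hx (not_le.mpr (vx_of_vy hW h (not_le.mp hy)))

end Wrapper

section Decomposition

variable {K L : Type*} [Field K] [Field L] [Algebra K L] {A : ValuationSubring L}

theorem coe_smul_decomp (g : A.decompositionSubgroup K) (x : A) :
    ((g • x : A) : L) = (g : L ≃ₐ[K] L) (x : L) := rfl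

theorem apply_mem_of_mem_decomp {σ : L ≃ₐ[K] L} (hσ : σ ∈ A.decompositionSubgroup K) {x : L}
    (hx : x ∈ A) : σ x ∈ A :=
  ((⟨σ, hσ⟩ : A.decompositionSubgroup K) • (⟨x, hx⟩ : A)).2

theorem apply_mem_iff_of_mem_decomp {σ : L ≃ₐ[K] L} (hσ : σ ∈ A.decompositionSubgroup K) {x : L} :
    σ x ∈ A ↔ x ∈ A := by
  refine ⟨fun h => ?_, apply_mem_of_mem_decomp hσ⟩
  have hinv : σ⁻¹ ∈ A.decompositionSubgroup K := (A.decompositionSubgroup K).inv_mem hσ
  have := apply_mem_of_mem_decomp hinv h
  rwa [show σ⁻¹ (σ x) = x from σ.symm_apply_apply x] at this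

/-- The residue of `σ x` is `σ̄ (res x)`. -/
theorem res_apply_decomp {σ : L ≃ₐ[K] L} (hσ : σ ∈ A.decompositionSubgroup K) (x : A) :
    res A ⟨σ x, apply_mem_of_mem_decomp hσ x.2⟩ =
      (⟨σ, hσ⟩ : A.decompositionSubgroup K) • res A x := rfl

end Decomposition

end Fermat.Agent.ES.Q58.Red9
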