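/-
Programme Q (S58), reduction homomorphism chunk (helper9): **the glue**
`RelQbar W` (the Eichler–Shimura relation on the torsion of the generic fibre, `TraceCong20.RelQbar`)
from the relation in characteristic `r` (`CharRel`, helper8's deliverable) via the reduction
homomorphism `Red9Hom`/`Red9Gal`.
-/
import Mathlib
import Fermat.Agent.ES.Q58.Red9Gal
import Fermat.Agent.ES.Q58.TraceCong20

set_option autoImplicit false
set_option linter.style.haveILetI false

open WeierstrassCurve WeierstrassCurve.Affine WeierstrassCurve.Affine.Point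
open Fermat.Agent.S05.Kernel

namespace Fermat.Agent.ES.Q58.Red9

local notation "Qb" => AlgebraicClosure ℚ
local notation "GQ" => (AlgebraicClosure ℚ ≃ₐ[ℚ] AlgebraicClosure ℚ)

/-- **The Frobenius relation in characteristic `r`** on all points over any extension field `κ` of
`ZMod r`, for any `ZMod r`-algebra endomorphism `F` of `κ` acting as `x ↦ x ^ r`. -/
def CharRel (r : ℕ) [Fact r.Prime] (W₀ : WeierstrassCurve (ZMod r)) : Prop :=
  ∀ (κ : Type) [Field κ] [Algebra (ZMod r) κ] [DecidableEq κ] (F : κ →ₐ[ZMod r] κ),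
    (∀ x, F x = x ^ r) → ∀ Q : (W₀.toAffine⁄κ).Point,
      Point.map F (Point.map F Q) - W₀.traceOfFrobenius • Point.map F Q + (r : ℤ) • Q = 0

variable (W : WeierstrassCurve ℤ)

theorem relQbar_of_charRel
    (hchar : ∀ (r : ℕ) [Fact r.Prime], W.IsGoodPrimeFor r → CharRel r (W.reductionMod r)) :
    Fermat.Agent.ES.Q58.TraceCong20.RelQbar W := by
  intro r hr hgood m _ hrm P σ hP hσ Q hmQ
  have : Fact r.Prime := ⟨hr⟩
  classical
  -- the residue field has characteristic `r`
  have hrP : ((r : ℕ) : P) ∈ IsLocalRing.maximalIdeal P := by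
    have h1 : (((r : ℕ) : P) : Qb) ∈ P.nonunits := by
      have : (((r : ℕ) : P) : Qb) = (r : Qb) := by push_cast; rfl
      rw [this]
      exact hP
    exact ValuationSubring.coe_mem_nonunits_iff.mp h1
  have hr0 : ((r : ℕ) : kap P) = 0 := by
    have := (res_eq_zero_iff (A := P)).mpr hrP
    simpa using this
  have hchar' : CharP (kap P) r := (CharP.charP_iff_prime_eq_zero hr).mpr hr0
  letI : Algebra (ZMod r) (kap P) := ZMod.algebra (kap P) r
  -- the three presentations of the curve
  set WA : WeierstrassCurve P := W.map (Int.castRingHom P) with hWA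
  have hL : WL WA = (W.map (Int.castRingHom ℚ))⁄Qb := by
    ext <;> simp [hWA, WL]
  have hk : Wk WA = (W.reductionMod r).toAffine⁄(kap P) := by
    ext <;> simp [hWA, Wk, WeierstrassCurve.reductionMod]
  have hΔ : ((W.reductionMod r).toAffine⁄(kap P)).Δ ≠ 0 := by
    show ((W.reductionMod r).map (algebraMap (ZMod r) (kap P))).Δ ≠ 0
    rw [WeierstrassCurve.map_Δ, WeierstrassCurve.reductionMod, WeierstrassCurve.map_Δ]
    intro h0
    have h1 := (map_eq_zero_iff _ (algebraMap (ZMod r) (kap P)).injective).mp h0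
    rw [eq_intCast, ZMod.intCast_zmod_eq_zero_iff_dvd] at h1
    exact hgood h1
  obtain ⟨f, hf1, hf2, hf3, hint⟩ := exists_redHom P _ _ WA hL hk hΔ
  -- the Frobenius endomorphism of the residue field
  obtain ⟨hσdec, hσfrob⟩ := hσ
  let F : kap P →ₐ[ZMod r] kap P :=
    { frobenius (kap P) r with
      commutes' := fun c => by
        show (algebraMap (ZMod r) (kap P) c) ^ r = _
        rw [← map_pow, ZMod.pow_card] }
  have hF : ∀ x, F x = x ^ r := fun x => rfl
  -- compatibility of the reduction with Frobenius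
  have key : ∀ Q' : ((W.map (Int.castRingHom ℚ))⁄Qb).Point, f (σ • Q') = Point.map F (f Q') := by
    rintro (_ | ⟨x, y, h⟩)
    · have h0 : σ • (Point.zero : ((W.map (Int.castRingHom ℚ))⁄Qb).Point) = 0 := rfl
      rw [h0]
      have h1 : (Point.zero : ((W.map (Int.castRingHom ℚ))⁄Qb).Point) = 0 := rfl
      rw [h1, _root_.map_zero, _root_.map_zero]
    · rw [algEquiv_smul_def, Point.map_some]
      by_cases hx : x ∈ P
      · have hy : y ∈ P := y_mem_of_x_mem' hint h.1 hx
        obtain ⟨x, rfl⟩ : ∃ x' : P, (x' : Qb) = x := ⟨⟨x, hx⟩, rfl⟩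
        obtain ⟨y, rfl⟩ : ∃ y' : P, (y' : Qb) = y := ⟨⟨y, hy⟩, rfl⟩
        obtain ⟨h', e⟩ := hf1 x y h
        rw [e, Point.map_some]
        have hsx : σ (x : Qb) ∈ P := apply_mem_of_mem_decomp hσdec x.2
        have hsy : σ (y : Qb) ∈ P := apply_mem_of_mem_decomp hσdec y.2
        have hgen : ∀ (hq : ((W.map (Int.castRingHom ℚ))⁄Qb).Nonsingular (σ (x : Qb)) (σ (y : Qb)))
            (hq' : ((W.reductionMod r).toAffine⁄(kap P)).Nonsingular (F (res P x)) (F (res P y))),
            f (Point.some _ _ hq) = Point.some _ _ hq' := by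
          intro hq hq'
          obtain ⟨h'', e'⟩ := hf1 ⟨σ x, hsx⟩ ⟨σ y, hsy⟩ hq
          refine e'.trans ?_
          simp only [Point.some.injEq]
          refine ⟨?_, ?_⟩
          · rw [hF]
            exact (res_apply_decomp hσdec x).trans (hσfrob _)
          · rw [hF]
            exact (res_apply_decomp hσdec y).trans (hσfrob _)
        exact hgen _ _
      · have hsx : σ.toAlgHom x ∉ P := fun hmem => hx ((apply_mem_iff_of_mem_decomp hσdec).mp hmem)
        rw [hf2 _ _ _ hsx, hf2 _ _ _ hx, _root_.map_zero]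
  -- the combination `Z` is killed by `f`, hence lies in `E₁`, hence vanishes
  have hfZ : f (σ • σ • Q - W.apOfModel r • (σ • Q) + r • Q) = 0 := by
    rw [map_add, map_sub, map_zsmul, map_nsmul, key, key]
    have h1 := hchar r hgood (kap P) F hF (f Q)
    rw [natCast_zsmul] at h1
    exact h1
  have hZ1 := (hf3 _).mp hfZ
  -- `m` is a unit at `P`
  have hvm : P.valuation ((m : ℕ) : Qb) = 1 := by
    have h1 : res P ((m : ℕ) : P) ≠ 0 := by
      rw [map_natCast]
      intro h0
      exact hrm ((CharP.cast_eq_zero_iff (kap P) r m).mp h0)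
    have := valuation_eq_one_of_res_ne_zero h1
    simpa using this
  have hσm : ∀ Q' : ((W.map (Int.castRingHom ℚ))⁄Qb).Point, m • Q' = 0 → m • (σ • Q') = 0 := by
    intro Q' h
    have := map_nsmul (DistribSMul.toAddMonoidHom ((W.map (Int.castRingHom ℚ))⁄Qb).Point σ) m Q'
    simp only [DistribSMul.toAddMonoidHom_apply] at this
    rw [← this, h]
    rfl
  have hmZ : m • (σ • σ • Q - W.apOfModel r • (σ • Q) + r • Q) = 0 := by
    have h1 : (nsmulAddMonoidHom m) (σ • σ • Q - W.apOfModel r • (σ • Q) + r • Q) = 0 := by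
      rw [map_add, map_sub, map_zsmul, map_nsmul]
      simp only [nsmulAddMonoidHom_apply]
      rw [hσm _ (hσm _ hmQ), hσm _ hmQ, hmQ, zsmul_zero, nsmul_zero, sub_zero, add_zero]
    exact h1
  exact eq_zero_of_nsmul_eq_zero hint hZ1 hvm hmZ

end Fermat.Agent.ES.Q58.Red9
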