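/-
helper9 — S58 final bridge: `RelQbar W` for every integral Weierstrass curve `W`,
combining the reduction-homomorphism glue (`Red9Glue.relQbar_of_charRel`) with the
Frobenius relation in characteristic `r` (`FrobRel8F.frob_rel`, helper8).
-/
import Mathlib
import Fermat.Agent.ES.Q58.Red9Glue
import Fermat.Agent.ES.Q58.FrobRel8F

namespace Fermat.Agent.ES.Q58.Red9

open WeierstrassCurve

/-- at a good prime the reduction has nonzero discriminant. -/
theorem reductionMod_Δ_ne_zero9 (W : WeierstrassCurve ℤ) (r : ℕ)
    (hgood : W.IsGoodPrimeFor r) : (W.reductionMod r).Δ ≠ 0 := by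
  unfold WeierstrassCurve.reductionMod
  rw [WeierstrassCurve.map_Δ]
  intro h
  apply hgood
  have h' : ((W.Δ : ℤ) : ZMod r) = 0 := by simpa using h
  exact (ZMod.intCast_zmod_eq_zero_iff_dvd _ _).mp h'

/-- the characteristic-`r` Frobenius relation, in the `CharRel` packaging. -/
theorem charRel_of_good9 (W : WeierstrassCurve ℤ) (r : ℕ) [Fact r.Prime]
    (hgood : W.IsGoodPrimeFor r) : CharRel r (W.reductionMod r) := by
  intro κ _ _ _ F hF Q
  exact Fermat.Agent.ES.Q58.FrobRel8F.frob_rel (W.reductionMod r)
    (reductionMod_Δ_ne_zero9 W r hgood) κ F hF Q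

/-- **the Eichler–Shimura congruence relation over `ℚ̄`** for every integral Weierstrass curve:
at a good prime `r ∤ m`, every Frobenius element `σ` at `r` satisfies
`σ² - a_r σ + r = 0` on the `m`-torsion. -/
theorem relQbar (W : WeierstrassCurve ℤ) : Fermat.Agent.ES.Q58.TraceCong20.RelQbar W :=
  relQbar_of_charRel W fun r _ hgood => charRel_of_good9 W r hgood

end Fermat.Agent.ES.Q58.Red9
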