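/-
Programme Q (S58), EC-side Eichler–Shimura relation (helper8): the bridge
`FrobRel8F.frob_rel` (relation in characteristic `r`) + `Red9.relQbar_of_charRel` (reduction glue,
helper9) ⟹ `TraceCong20.RelQbar W` for every `W : WeierstrassCurve ℤ`.
-/
import Fermat.Agent.ES.Q58.FrobRel8F
import Fermat.Agent.ES.Q58.Red9Glue

set_option autoImplicit false

namespace Fermat.Agent.ES.Q58.RelQbar8

open WeierstrassCurve WeierstrassCurve.Affine

/-- the relation in characteristic `r`, in the shape consumed by `Red9.relQbar_of_charRel`. -/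
theorem charRel_of_Δ_ne_zero (r : ℕ) [Fact r.Prime] (W₀ : WeierstrassCurve (ZMod r))
    (hΔ : W₀.Δ ≠ 0) : Red9.CharRel r W₀ :=
  fun κ _ _ _ F hF Q => FrobRel8F.frob_rel W₀ hΔ κ F hF Q

/-- a good prime of an integral model has non-vanishing discriminant modulo the prime. -/
theorem reductionMod_Δ_ne_zero (W : WeierstrassCurve ℤ) (r : ℕ) (hgood : W.IsGoodPrimeFor r) :
    (W.reductionMod r).Δ ≠ 0 := by
  unfold WeierstrassCurve.reductionMod
  rw [WeierstrassCurve.map_Δ]
  unfold WeierstrassCurve.IsGoodPrimeFor at hgood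
  intro h
  exact hgood ((ZMod.intCast_zmod_eq_zero_iff_dvd _ _).mp h)

/-- **the Eichler–Shimura relation on torsion points over `Qbar`**: for every good prime `r`, every
Frobenius `σ` at a place over `r` satisfies `σ² - a_r σ + r = 0` on prime-to-`r` odd torsion. -/
theorem relQbar (W : WeierstrassCurve ℤ) : Fermat.Agent.ES.Q58.TraceCong20.RelQbar W :=
  Red9.relQbar_of_charRel W fun r _ hgood =>
    charRel_of_Δ_ne_zero r _ (reductionMod_Δ_ne_zero W r hgood)

end Fermat.Agent.ES.Q58.RelQbar8
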