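/-
Programme Q (S58), second round (helper1): **S58 from the Eichler–Shimura relation on the generic
fibre** (`TraceCong20.RelQbar W`).

`ECFacts W` = `InertiaFixA.ecFacts_inertia` (semistable, `Δ ≠ 0`) + `TraceCong20.trace_of_rel`;
then `LocalOfEC12.s58_of_ecFacts`.
-/
import Mathlib
import Fermat.Agent.ES.Q58.LocalOfEC12
import Fermat.Agent.ES.Q58.InertiaFixA
import Fermat.Agent.ES.Q58.TraceCong20

set_option autoImplicit false

open WeierstrassCurve

namespace Fermat.Agent.ES.Q58.WireA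

open Fermat.Agent.ES.Q58.ECIface12

/-- the EC package of a semistable model, from the relation on the generic fibre. -/
theorem ecFacts_of_rel (W : WeierstrassCurve ℤ) (hΔ : W.Δ ≠ 0) (hss : W.IsSemistableModel)
    (hrel : Fermat.Agent.ES.Q58.TraceCong20.RelQbar W) : ECFacts W :=
  ⟨Fermat.Agent.ES.Q58.InertiaFixA.ecFacts_inertia W hΔ hss,
    Fermat.Agent.ES.Q58.TraceCong20.trace_of_rel W hrel⟩

/-- **S58 from `RelQbar`.** -/
theorem s58_of_rel (W : WeierstrassCurve ℤ) (hss : W.IsSemistableModel) (N : ℕ)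
    (hN : W.IsModularModelOfLevel N) (hbad : ∀ ℓ : ℕ, ℓ.Prime → (ℓ : ℤ) ∣ W.Δ → ℓ ∣ N)
    (hN3 : ∀ q : ℕ, q.Prime → ¬ q ^ 3 ∣ N)
    (hrel : Fermat.Agent.ES.Q58.TraceCong20.RelQbar W) :
    W.IsModularModelOfLevel W.conductorLevel := by
  have hN0 : N ≠ 0 := Fermat.Agent.ES.Q58.TopA12.level_ne_zero hN3
  have hΔ : W.Δ ≠ 0 := Fermat.Agent.ES.Q58.TopA12.disc_ne_zero hN0 hbad
  exact Fermat.Agent.ES.Q58.LocalOfEC12.s58_of_ecFacts W N hN hbad hN3
    (ecFacts_of_rel W hΔ hss hrel)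

end Fermat.Agent.ES.Q58.WireA
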